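/-
S55 / D / Inv : a `p`-group acting on a nonzero finite `𝔽_p`-space has a nonzero invariant
functional (A8 / ALG7), in the form used in D7.   Mathlib only.  Statement FROZEN.
-/
import Mathlib

set_option autoImplicit false

noncomputable section

namespace Fermat.Agent.S55

open Module Function

/-- `U` acts on `X` through the finite `p`-group `U/N`; `Z ≠ 0` a `U`-stable subspace.  Then there
is a linear form on `X` whose restriction to `Z` is nonzero and `U`-invariant. -/
theorem exists_invariant_functional {p : ℕ} [Fact p.Prime] {G : Type} [Group G] {X : Type}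
    [AddCommGroup X] [Module (ZMod p) X] [FiniteDimensional (ZMod p) X]
    (ρ : Representation (ZMod p) G X) (U N : Subgroup G) (hNU : N ≤ U) (hNn : N.Normal)
    (hNX : ∀ n ∈ N, ρ n = 1) (hp : IsPGroup p (↥U ⧸ N.subgroupOf U))
    (Z : Submodule (ZMod p) X) (hZ : ∀ u ∈ U, Z ≤ Z.comap (ρ u)) (hZ0 : Z ≠ ⊥) :
    ∃ l : X →ₗ[ZMod p] ZMod p, (∀ u ∈ U, ∀ z ∈ Z, l (ρ u z) = l z) ∧ ∃ z ∈ Z, l z ≠ 0 := by
  classical
  -- the representation of `U` on `Z`
  let ρZ : Representation (ZMod p) U Z :=
    { toFun := fun u => (ρ u).restrict (hZ u u.2)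
      map_one' := by
        ext z
        simp
      map_mul' := fun u u' => by
        ext z
        simp }
  have hρZ : ∀ (u : U) (z : Z), ((ρZ u z : Z) : X) = ρ u z := fun u z => rfl
  let D := Module.Dual (ZMod p) Z
  let ψ : U →* (Module.End (ZMod p) D)ˣ := (ρZ.dual).toHomUnits
  have hψ : ∀ (u : U) (l : D) (z : Z), ((ψ u : Module.End (ZMod p) D) l) z = l (ρZ u⁻¹ z) := by
    intro u l z
    rfl
  -- the image of `U` is a `p`-group
  have hker : N.subgroupOf U ≤ ψ.rangeRestrict.ker := by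
    intro n hn
    rw [MonoidHom.mem_ker]
    apply Subtype.ext
    apply Units.ext
    ext l z
    have hn' : ((n⁻¹ : U) : G) ∈ N := by
      have : (n : G) ∈ N := hn
      simpa using N.inv_mem this
    have h1 : ρZ n⁻¹ z = z := by
      apply Subtype.ext
      rw [hρZ, hNX _ hn']
      rfl
    show ((ψ n : Module.End (ZMod p) D) l) z = l z
    rw [hψ, h1]
  have : (N.subgroupOf U).Normal := inferInstance
  have hP : IsPGroup p ψ.range := by
    refine hp.of_surjective (QuotientGroup.lift (N.subgroupOf U) ψ.rangeRestrict hker) ?_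
    rintro ⟨_, u, rfl⟩
    exact ⟨QuotientGroup.mk u, rfl⟩
  -- counting
  have hfin : Finite D := Module.finite_of_finite (ZMod p)
  have hdim : 0 < Module.finrank (ZMod p) D := by
    rw [Subspace.dual_finrank_eq]
    have : Nontrivial Z := Submodule.nontrivial_iff_ne_bot.mpr hZ0
    exact Module.finrank_pos
  have hcard : p ∣ Nat.card D := by
    rw [Module.natCard_eq_pow_finrank (K := ZMod p), Nat.card_zmod]
    exact dvd_pow_self p hdim.ne'
  have h0 : (0 : D) ∈ MulAction.fixedPoints ψ.range D := by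
    rintro ⟨g, hg⟩
    show (g : Module.End (ZMod p) D) 0 = 0
    simp
  obtain ⟨b, hb, hb0⟩ := hP.exists_fixed_point_of_prime_dvd_card_of_fixed_point D hcard h0
  obtain ⟨l, hl⟩ := LinearMap.exists_extend b
  have hlz : ∀ z : Z, l z = b z := fun z => by rw [← hl]; rfl
  refine ⟨l, fun u hu z hz => ?_, ?_⟩
  · have h1 : ((ψ (⟨u, hu⟩⁻¹ : U) : Module.End (ZMod p) D) b) = b :=
      hb ⟨ψ (⟨u, hu⟩⁻¹ : U), ⟨_, rfl⟩⟩
    have h2 := congrArg (fun f : D => f ⟨z, hz⟩) h1
    simp only [hψ, inv_inv] at h2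
    have h3 : ρ u z = ((ρZ ⟨u, hu⟩ ⟨z, hz⟩ : Z) : X) := rfl
    rw [h3, hlz, h2, ← hlz]
  · by_contra hcon
    push Not at hcon
    apply hb0
    ext z
    rw [← hlz, hcon z z.2]
    rfl

end Fermat.Agent.S55

end
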