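/-
S55 / D / LinAlg : the pure linear algebra behind the numerical devissage (blueprint part 2).
Mathlib only.  Statements FROZEN.
-/
import Mathlib

set_option autoImplicit false

noncomputable section

namespace Fermat.Agent.S55.LA

open Module Function

variable {k : Type} [Field k]

/-! ### exact sequences and ranks -/

section Basic
variable {U V W : Type} [AddCommGroup U] [Module k U] [AddCommGroup V] [Module k V]
  [AddCommGroup W] [Module k W]

theorem finrank_eq_of_exact [FiniteDimensional k V] {f : U →ₗ[k] V} {g : V →ₗ[k] W}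
    (h : Exact f g) :
    finrank k V = finrank k (LinearMap.range f) + finrank k (LinearMap.range g) := by
  rw [← LinearMap.exact_iff.mp h, add_comm]
  exact (LinearMap.finrank_range_add_finrank_ker g).symm

theorem finrank_map_add [FiniteDimensional k V] (f : V →ₗ[k] W) (S : Submodule k V) :
    finrank k (S.map f) + finrank k (S ⊓ LinearMap.ker f : Submodule k V) = finrank k S := by
  have h := LinearMap.finrank_range_add_finrank_ker (f.domRestrict S)
  rw [LinearMap.range_domRestrict] at h
  have h2 : finrank k (LinearMap.ker (f.domRestrict S))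
      = finrank k (S ⊓ LinearMap.ker f : Submodule k V) := by
    rw [LinearMap.ker_domRestrict]
    have : (S ⊓ LinearMap.ker f : Submodule k V) = ((LinearMap.ker f).comap S.subtype).map S.subtype := by
      rw [Submodule.map_comap_subtype]
    rw [this]
    exact (LinearEquiv.finrank_eq (Submodule.equivMapOfInjective S.subtype S.injective_subtype _))
  rw [← h, h2]

theorem finrank_range_of_injective {f : V →ₗ[k] W} (h : Injective f) :
    finrank k (LinearMap.range f) = finrank k V :=
  LinearMap.finrank_range_of_inj h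

end Basic
/-- the 9 term exact sequence `0 → A0 → B0 → C0 → A1 → B1 → C1 → A2 → B2 → C2`. -/
structure Exact9 {A0 B0 C0 A1 B1 C1 A2 B2 C2 : Type}
    [AddCommGroup A0] [Module k A0] [AddCommGroup B0] [Module k B0] [AddCommGroup C0] [Module k C0]
    [AddCommGroup A1] [Module k A1] [AddCommGroup B1] [Module k B1] [AddCommGroup C1] [Module k C1]
    [AddCommGroup A2] [Module k A2] [AddCommGroup B2] [Module k B2] [AddCommGroup C2] [Module k C2]
    (i0 : A0 →ₗ[k] B0) (π0 : B0 →ₗ[k] C0) (δ0 : C0 →ₗ[k] A1)
    (i1 : A1 →ₗ[k] B1) (π1 : B1 →ₗ[k] C1) (δ1 : C1 →ₗ[k] A2)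
    (i2 : A2 →ₗ[k] B2) (π2 : B2 →ₗ[k] C2) : Prop where
  inj : Injective i0
  exB0 : Exact i0 π0
  exC0 : Exact π0 δ0
  exA1 : Exact δ0 i1
  exB1 : Exact i1 π1
  exC1 : Exact π1 δ1
  exA2 : Exact δ1 i2
  exB2 : Exact i2 π2

/-- A7: `χ(A) + χ(C) - χ(B) = dim coker (B2 → C2)`. -/
theorem Exact9.euler {A0 B0 C0 A1 B1 C1 A2 B2 C2 : Type}
    [AddCommGroup A0] [Module k A0] [AddCommGroup B0] [Module k B0] [AddCommGroup C0] [Module k C0]
    [AddCommGroup A1] [Module k A1] [AddCommGroup B1] [Module k B1] [AddCommGroup C1] [Module k C1]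
    [AddCommGroup A2] [Module k A2] [AddCommGroup B2] [Module k B2] [AddCommGroup C2] [Module k C2]
    [FiniteDimensional k A0] [FiniteDimensional k B0] [FiniteDimensional k C0]
    [FiniteDimensional k A1] [FiniteDimensional k B1] [FiniteDimensional k C1]
    [FiniteDimensional k A2] [FiniteDimensional k B2] [FiniteDimensional k C2]
    {i0 : A0 →ₗ[k] B0} {π0 : B0 →ₗ[k] C0} {δ0 : C0 →ₗ[k] A1}
    {i1 : A1 →ₗ[k] B1} {π1 : B1 →ₗ[k] C1} {δ1 : C1 →ₗ[k] A2}
    {i2 : A2 →ₗ[k] B2} {π2 : B2 →ₗ[k] C2} (h : Exact9 i0 π0 δ0 i1 π1 δ1 i2 π2) :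
    ((finrank k A0 : ℤ) - finrank k A1 + finrank k A2)
      + ((finrank k C0 : ℤ) - finrank k C1 + finrank k C2)
      - ((finrank k B0 : ℤ) - finrank k B1 + finrank k B2)
      = (finrank k C2 : ℤ) - finrank k (LinearMap.range π2) := by
  have a0 := finrank_range_of_injective h.inj
  have b0 := finrank_eq_of_exact h.exB0
  have c0 := finrank_eq_of_exact h.exC0
  have a1 := finrank_eq_of_exact h.exA1
  have b1 := finrank_eq_of_exact h.exB1
  have c1 := finrank_eq_of_exact h.exC1
  have a2 := finrank_eq_of_exact h.exA2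
  have b2 := finrank_eq_of_exact h.exB2
  omega

/-- a product of exact sequences is exact -/
theorem exact_pi {ι : Type} {U V W : ι → Type} [∀ v, AddCommGroup (U v)] [∀ v, Module k (U v)]
    [∀ v, AddCommGroup (V v)] [∀ v, Module k (V v)] [∀ v, AddCommGroup (W v)]
    [∀ v, Module k (W v)] (f : ∀ v, U v →ₗ[k] V v) (g : ∀ v, V v →ₗ[k] W v)
    (h : ∀ v, Exact (f v) (g v)) :
    Exact (LinearMap.pi fun v => f v ∘ₗ LinearMap.proj v : (∀ v, U v) →ₗ[k] (∀ v, V v))
      (LinearMap.pi fun v => g v ∘ₗ LinearMap.proj v : (∀ v, V v) →ₗ[k] (∀ v, W v)) := by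
  intro y
  constructor
  · intro hy
    have : ∀ v, ∃ x, f v x = y v := fun v => (h v (y v)).mp (congrFun hy v)
    choose x hx using this
    exact ⟨x, funext hx⟩
  · rintro ⟨x, rfl⟩
    funext v
    exact (h v _).mpr ⟨x v, rfl⟩

structure Perf {P T : Type} [AddCommGroup P] [Module k P] [AddCommGroup T] [Module k T]
    (B : P →ₗ[k] T →ₗ[k] k) : Prop where
  left : ∀ z, (∀ t, B z t = 0) → z = 0
  right : ∀ t, (∀ z, B z t = 0) → t = 0

section Perp
variable {P T : Type} [AddCommGroup P] [Module k P] [AddCommGroup T] [Module k T]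
  [FiniteDimensional k P] [FiniteDimensional k T]
  {B : P →ₗ[k] T →ₗ[k] k}

lemma Perf.injective_left (hB : Perf B) : Injective B := by
  rw [injective_iff_map_eq_zero]
  intro z hz
  exact hB.left z (fun t => by rw [hz]; rfl)

lemma Perf.injective_right (hB : Perf B) : Injective B.flip := by
  rw [injective_iff_map_eq_zero]
  intro t ht
  exact hB.right t (fun z => by
    have := congrArg (fun φ => φ z) ht
    simpa using this)

lemma Perf.flip (hB : Perf B) : Perf B.flip := ⟨hB.right, hB.left⟩

theorem Perf.finrank_eq (hB : Perf B) : finrank k P = finrank k T := by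
  apply le_antisymm
  · have := LinearMap.finrank_le_finrank_of_injective hB.injective_left
    rwa [Subspace.dual_finrank_eq] at this
  · have := LinearMap.finrank_le_finrank_of_injective hB.injective_right
    rwa [Subspace.dual_finrank_eq] at this

/-- `T ≃ Dual P` -/
def Perf.equiv (hB : Perf B) : T ≃ₗ[k] Module.Dual k P :=
  LinearEquiv.ofInjectiveOfFinrankEq B.flip hB.injective_right
    (by rw [Subspace.dual_finrank_eq, hB.finrank_eq])

@[simp] lemma Perf.equiv_apply (hB : Perf B) (t : T) (z : P) : hB.equiv t z = B z t := rfl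

/-- the annihilator of `S` in `T` -/
def perp (B : P →ₗ[k] T →ₗ[k] k) (S : Submodule k P) : Submodule k T where
  carrier := {t | ∀ s ∈ S, B s t = 0}
  add_mem' := fun {a b} ha hb s hs => by rw [map_add, ha s hs, hb s hs, add_zero]
  zero_mem' := fun s _ => by simp
  smul_mem' := fun c a ha s hs => by rw [map_smul, ha s hs, smul_zero]

lemma mem_perp {S : Submodule k P} {t : T} : t ∈ perp B S ↔ ∀ s ∈ S, B s t = 0 := Iff.rfl

theorem Perf.finrank_perp (hB : Perf B) (S : Submodule k P) :
    finrank k S + finrank k (perp B S) = finrank k P := by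
  have h1 : (perp B S).map (hB.equiv : T →ₗ[k] Module.Dual k P) = S.dualAnnihilator := by
    ext φ
    simp only [Submodule.mem_map, Submodule.mem_dualAnnihilator]
    constructor
    · rintro ⟨t, ht, rfl⟩ s hs
      exact ht s hs
    · intro h
      refine ⟨hB.equiv.symm φ, fun s hs => ?_, by simp⟩
      have := h s hs
      rw [← hB.equiv_apply, LinearEquiv.apply_symm_apply]
      exact this
  have h2 : finrank k (perp B S) = finrank k S.dualAnnihilator := by
    rw [← h1]
    exact (LinearEquiv.finrank_eq (hB.equiv.submoduleMap (perp B S)))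
  rw [h2]
  exact Subspace.finrank_add_finrank_dualAnnihilator_eq S

theorem Perf.finrank_add_le (hB : Perf B) (S : Submodule k P) (W : Submodule k T)
    (h : ∀ s ∈ S, ∀ w ∈ W, B s w = 0) : finrank k S + finrank k W ≤ finrank k P := by
  have hW : W ≤ perp B S := fun w hw s hs => h s hs w hw
  have := Submodule.finrank_mono hW
  have h2 := hB.finrank_perp S
  omega

theorem Perf.mem_of_orth (hB : Perf B) (S : Submodule k P) (W : Submodule k T)
    (h : ∀ s ∈ S, ∀ w ∈ W, B s w = 0) (hd : finrank k P ≤ finrank k S + finrank k W)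
    (t : T) (ht : ∀ s ∈ S, B s t = 0) : t ∈ W := by
  have hW : W ≤ perp B S := fun w hw s hs => h s hs w hw
  have h2 := hB.finrank_perp S
  have : W = perp B S := Submodule.eq_of_le_of_finrank_le hW (by omega)
  rw [this]
  exact ht

theorem Perf.finrank_le_add (hB : Perf B) (S : Submodule k P) (W : Submodule k T)
    (h : ∀ t, (∀ s ∈ S, B s t = 0) → t ∈ W) : finrank k P ≤ finrank k S + finrank k W := by
  have hW : perp B S ≤ W := fun t ht => h t ht
  have := Submodule.finrank_mono hW
  have h2 := hB.finrank_perp S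
  omega

variable {P' T' : Type} [AddCommGroup P'] [Module k P'] [AddCommGroup T'] [Module k T']
  [FiniteDimensional k P'] [FiniteDimensional k T']
  {B' : P' →ₗ[k] T' →ₗ[k] k}

theorem Perf.rank_adjoint (hB : Perf B) (hB' : Perf B') (f : P →ₗ[k] P') (f' : T' →ₗ[k] T)
    (adj : ∀ z t, B' (f z) t = B z (f' t)) :
    finrank k (LinearMap.range f) = finrank k (LinearMap.range f') := by
  -- ker f' = perp of range f
  have h1 : LinearMap.ker f' = perp B' (LinearMap.range f) := by
    ext t
    rw [LinearMap.mem_ker, mem_perp]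
    constructor
    · rintro ht _ ⟨z, rfl⟩
      rw [adj, ht, map_zero]
    · intro h
      exact hB.right _ (fun z => by rw [← adj]; exact h _ ⟨z, rfl⟩)
  have h2 := hB'.finrank_perp (LinearMap.range f)
  have h3 := LinearMap.finrank_range_add_finrank_ker f'
  have h4 := hB'.finrank_eq
  rw [h1] at h3
  omega

theorem Perf.surjective_of_adjoint (hB : Perf B) (hB' : Perf B') (f : P →ₗ[k] P')
    (f' : T' →ₗ[k] T) (adj : ∀ z t, B' (f z) t = B z (f' t)) (hf' : Injective f') :
    Surjective f := by
  have h1 := hB.rank_adjoint hB' f f' adj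
  rw [LinearMap.finrank_range_of_inj hf', ← hB'.finrank_eq] at h1
  rw [← LinearMap.range_eq_top]
  exact Submodule.eq_top_of_finrank_eq h1

end Perp
end Fermat.Agent.S55.LA

end
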