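/-
S55 / D / Setup : abstract arithmetic datum, the numerical invariants and the axioms
(blueprint part 2).  Definitions only: FROZEN.
-/
import Fermat.Agent.S55.Coh.Func
import Fermat.Prelude.Def_GroupCohomology_Selmer

set_option autoImplicit false

noncomputable section

namespace Fermat.Agent.S55

open Module

/-- Abstract arithmetic datum: a group with "global" levels `L`, finer levels `Lloc` used for the
local subgroups `D v`, and the cyclotomic character `ω`. -/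
structure Datum (p : ℕ) [Fact p.Prime] where
  G : Type
  [grp : Group G]
  L : Levels G
  Lloc : Levels G
  le : ∀ U : Subgroup G, L.IsOpen U → Lloc.IsOpen U
  ι : Type
  [fin : Fintype ι]
  [ne : Nonempty ι]
  D : ι → Subgroup G
  ω : G →* (ZMod p)ˣ
  ω_open : L.IsOpen ω.ker

attribute [instance] Datum.grp Datum.fin Datum.ne

variable {p : ℕ} [Fact p.Prime]

namespace Datum

variable (𝒜 : Datum p)

/-- levels of the local group at `v` -/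
abbrev Lv (v : 𝒜.ι) : Levels (𝒜.D v) := 𝒜.Lloc.sub (𝒜.D v)

/-- `μ = 𝔽_p(ω)` -/
def mu : Representation (ZMod p) 𝒜.G (ZMod p) :=
  (Representation.trivial (ZMod p) 𝒜.G (ZMod p)).twist 𝒜.ω

/-- the trivial representation `𝔽_p` -/
abbrev triv : Representation (ZMod p) 𝒜.G (ZMod p) := Representation.trivial (ZMod p) 𝒜.G (ZMod p)

variable {X : Type} [AddCommGroup X] [Module (ZMod p) X]

/-- `X' = Hom(X, μ)` : same formula as Prelude's `Rep.dualTwist` -/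
abbrev dualT (ρ : Representation (ZMod p) 𝒜.G X) :
    Representation (ZMod p) 𝒜.G (Module.Dual (ZMod p) X) :=
  ρ.dual.twist 𝒜.ω

/-- localisation pair at `v` -/
def loc (v : 𝒜.ι) (ρ : Representation (ZMod p) 𝒜.G X) :
    Pair 𝒜.L ρ (𝒜.Lv v) (rsub ρ (𝒜.D v)) :=
  (Pair.res 𝒜.Lloc ρ (𝒜.D v)).comp (Pair.infl 𝒜.le ρ)

/-- `P⁰, P¹, P²` -/
abbrev P0 (ρ : Representation (ZMod p) 𝒜.G X) : Type := ∀ v, ↥(H0 (rsub ρ (𝒜.D v)))
abbrev P1 (ρ : Representation (ZMod p) 𝒜.G X) : Type := ∀ v, H1 (𝒜.Lv v) (rsub ρ (𝒜.D v))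
abbrev P2 (ρ : Representation (ZMod p) 𝒜.G X) : Type := ∀ v, H2 (𝒜.Lv v) (rsub ρ (𝒜.D v))

def loc0 (ρ : Representation (ZMod p) 𝒜.G X) : ↥(H0 ρ) →ₗ[ZMod p] 𝒜.P0 ρ :=
  LinearMap.pi fun v => (𝒜.loc v ρ).map0
def loc1 (ρ : Representation (ZMod p) 𝒜.G X) : H1 𝒜.L ρ →ₗ[ZMod p] 𝒜.P1 ρ :=
  LinearMap.pi fun v => (𝒜.loc v ρ).map1
def loc2 (ρ : Representation (ZMod p) 𝒜.G X) : H2 𝒜.L ρ →ₗ[ZMod p] 𝒜.P2 ρ :=
  LinearMap.pi fun v => (𝒜.loc v ρ).map2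

/-- `Ш¹`, `Ш²` -/
def Sha1 (ρ : Representation (ZMod p) 𝒜.G X) : Submodule (ZMod p) (H1 𝒜.L ρ) :=
  LinearMap.ker (𝒜.loc1 ρ)
def Sha2 (ρ : Representation (ZMod p) 𝒜.G X) : Submodule (ZMod p) (H2 𝒜.L ρ) :=
  LinearMap.ker (𝒜.loc2 ρ)

/-- an invariant of `X'` over a subgroup `V` is an equivariant map `X → μ` over `V` -/
lemma dualT_invariant_apply (ρ : Representation (ZMod p) 𝒜.G X) (V : Subgroup 𝒜.G)
    (φ : ↥(H0 (rsub (𝒜.dualT ρ) V))) (g : V) (x : X) :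
    (φ : Module.Dual (ZMod p) X) (rsub ρ V g x) = rsub 𝒜.mu V g ((φ : Module.Dual (ZMod p) X) x) := by
  have h := congrArg (fun ψ : Module.Dual (ZMod p) X => ψ (ρ g x)) (φ.2 g)
  simp only [MonoidHom.comp_apply, Subgroup.coe_subtype, Representation.twist_apply_apply,
    LinearMap.smul_apply, Representation.dual_apply, Module.Dual.transpose_apply,
    LinearMap.comp_apply] at h
  rw [← Module.End.mul_apply, ← map_mul, inv_mul_cancel, map_one, Module.End.one_apply] at h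
  simp only [mu, MonoidHom.comp_apply, Subgroup.coe_subtype, Representation.twist_apply_apply,
    Representation.trivial_apply]
  exact h.symm

/-- the coefficient pair `X → μ` over `D v` attached to `φ ∈ H⁰(D_v, X')` -/
def evPair (v : 𝒜.ι) (ρ : Representation (ZMod p) 𝒜.G X)
    (φ : ↥(H0 (rsub (𝒜.dualT ρ) (𝒜.D v)))) :
    Pair (𝒜.Lv v) (rsub ρ (𝒜.D v)) (𝒜.Lv v) (rsub 𝒜.mu (𝒜.D v)) :=
  Pair.coeff _ (φ : Module.Dual (ZMod p) X) (𝒜.dualT_invariant_apply ρ (𝒜.D v) φ)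

/-- the same over the whole group -/
def evPairG (ρ : Representation (ZMod p) 𝒜.G X) (φ : ↥(H0 (𝒜.dualT ρ))) :
    Pair 𝒜.L ρ 𝒜.L 𝒜.mu :=
  Pair.coeff _ (φ : Module.Dual (ZMod p) X) (fun g x => by
    have h := congrArg (fun ψ : Module.Dual (ZMod p) X => ψ (ρ g x)) (φ.2 g)
    simp only [Representation.twist_apply_apply,
      LinearMap.smul_apply, Representation.dual_apply, Module.Dual.transpose_apply,
      LinearMap.comp_apply] at h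
    rw [← Module.End.mul_apply, ← map_mul, inv_mul_cancel, map_one, Module.End.one_apply] at h
    simp only [mu, Representation.twist_apply_apply, Representation.trivial_apply]
    exact h.symm)

/-! ### numerical invariants (integers) -/

def h0 (ρ : Representation (ZMod p) 𝒜.G X) : ℤ := finrank (ZMod p) ↥(H0 ρ)
def h1 (ρ : Representation (ZMod p) 𝒜.G X) : ℤ := finrank (ZMod p) (H1 𝒜.L ρ)
def h2 (ρ : Representation (ZMod p) 𝒜.G X) : ℤ := finrank (ZMod p) (H2 𝒜.L ρ)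
def p0 (ρ : Representation (ZMod p) 𝒜.G X) : ℤ := finrank (ZMod p) (𝒜.P0 ρ)
def p1 (ρ : Representation (ZMod p) 𝒜.G X) : ℤ := finrank (ZMod p) (𝒜.P1 ρ)
def p2 (ρ : Representation (ZMod p) 𝒜.G X) : ℤ := finrank (ZMod p) (𝒜.P2 ρ)
def s1 (ρ : Representation (ZMod p) 𝒜.G X) : ℤ := finrank (ZMod p) ↥(𝒜.Sha1 ρ)
def s2 (ρ : Representation (ZMod p) 𝒜.G X) : ℤ := finrank (ZMod p) ↥(𝒜.Sha2 ρ)
def r1 (ρ : Representation (ZMod p) 𝒜.G X) : ℤ := finrank (ZMod p) ↥(LinearMap.range (𝒜.loc1 ρ))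
def r2 (ρ : Representation (ZMod p) 𝒜.G X) : ℤ := finrank (ZMod p) ↥(LinearMap.range (𝒜.loc2 ρ))
/-- `c = dim coker loc²` -/
def c (ρ : Representation (ZMod p) 𝒜.G X) : ℤ := 𝒜.p2 ρ - 𝒜.r2 ρ
def chi (ρ : Representation (ZMod p) 𝒜.G X) : ℤ := 𝒜.h0 ρ - 𝒜.h1 ρ + 𝒜.h2 ρ
def chiLoc (ρ : Representation (ZMod p) 𝒜.G X) : ℤ := 𝒜.p0 ρ - 𝒜.p1 ρ + 𝒜.p2 ρ
def t (ρ : Representation (ZMod p) 𝒜.G X) : ℤ := 𝒜.c ρ - 𝒜.h0 (𝒜.dualT ρ)
def d (ρ : Representation (ZMod p) 𝒜.G X) : ℤ := 𝒜.s2 ρ - 𝒜.s1 (𝒜.dualT ρ)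
def m (ρ : Representation (ZMod p) 𝒜.G X) : ℤ := 𝒜.p1 ρ - 𝒜.r1 ρ - 𝒜.r1 (𝒜.dualT ρ)
def E (ρ : Representation (ZMod p) 𝒜.G X) : ℤ := 𝒜.chi ρ + 𝒜.chi (𝒜.dualT ρ) - 𝒜.chiLoc ρ

end Datum

/-- The arithmetic input of the numerical devissage. -/
structure Datum.Axioms (𝒜 : Datum p) where
  /-- (FIN) -/
  fin1 : ∀ {X : Type} [AddCommGroup X] [Module (ZMod p) X] [FiniteDimensional (ZMod p) X]
    (ρ : Representation (ZMod p) 𝒜.G X) [Smooth 𝒜.L ρ], FiniteDimensional (ZMod p) (H1 𝒜.L ρ)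
  fin2 : ∀ {X : Type} [AddCommGroup X] [Module (ZMod p) X] [FiniteDimensional (ZMod p) X]
    (ρ : Representation (ZMod p) 𝒜.G X) [Smooth 𝒜.L ρ], FiniteDimensional (ZMod p) (H2 𝒜.L ρ)
  finLoc1 : ∀ {X : Type} [AddCommGroup X] [Module (ZMod p) X] [FiniteDimensional (ZMod p) X]
    (ρ : Representation (ZMod p) 𝒜.G X) [Smooth 𝒜.L ρ] (v : 𝒜.ι),
    FiniteDimensional (ZMod p) (H1 (𝒜.Lv v) (rsub ρ (𝒜.D v)))
  finLoc2 : ∀ {X : Type} [AddCommGroup X] [Module (ZMod p) X] [FiniteDimensional (ZMod p) X]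
    (ρ : Representation (ZMod p) 𝒜.G X) [Smooth 𝒜.L ρ] (v : 𝒜.ι),
    FiniteDimensional (ZMod p) (H2 (𝒜.Lv v) (rsub ρ (𝒜.D v)))
  /-- local invariant maps -/
  lam : ∀ v : 𝒜.ι, H2 (𝒜.Lv v) (rsub 𝒜.mu (𝒜.D v)) ≃ₗ[ZMod p] ZMod p
  /-- (L1) left nondegeneracy -/
  L1_left : ∀ {X : Type} [AddCommGroup X] [Module (ZMod p) X] [FiniteDimensional (ZMod p) X]
    (ρ : Representation (ZMod p) 𝒜.G X) [Smooth 𝒜.L ρ] (v : 𝒜.ι)
    (z : H2 (𝒜.Lv v) (rsub ρ (𝒜.D v))),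
    (∀ φ : ↥(H0 (rsub (𝒜.dualT ρ) (𝒜.D v))), lam v ((𝒜.evPair v ρ φ).map2 z) = 0) → z = 0
  /-- (L1) right nondegeneracy -/
  L1_right : ∀ {X : Type} [AddCommGroup X] [Module (ZMod p) X] [FiniteDimensional (ZMod p) X]
    (ρ : Representation (ZMod p) 𝒜.G X) [Smooth 𝒜.L ρ] (v : 𝒜.ι)
    (φ : ↥(H0 (rsub (𝒜.dualT ρ) (𝒜.D v)))),
    (∀ z : H2 (𝒜.Lv v) (rsub ρ (𝒜.D v)), lam v ((𝒜.evPair v ρ φ).map2 z) = 0) → φ = 0
  /-- (G1) reciprocity -/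
  G1 : ∀ z : H2 𝒜.L 𝒜.mu, ∑ v, lam v ((𝒜.loc v 𝒜.mu).map2 z) = 0
  /-- (bt) -/
  bt : ∀ U : Subgroup 𝒜.G, 𝒜.L.IsOpen U → ∃ N : Subgroup 𝒜.G, 𝒜.L.IsOpen N ∧ N ≤ U ∧ N.Normal ∧
    N ≤ 𝒜.ω.ker ∧ 𝒜.c (Fun 𝒜.triv (𝒜.G ⧸ N)) ≤ 1
  /-- (bE) -/
  bE : ∀ U : Subgroup 𝒜.G, 𝒜.L.IsOpen U → U ≤ 𝒜.ω.ker → 𝒜.E (Fun 𝒜.triv (𝒜.G ⧸ U)) ≤ 0

end Fermat.Agent.S55

end
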