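/-
S55 / D / Maps : coefficient maps on global cohomology `g0 g1 g2` and on `P⁰ P¹ P²` (`l0 l1 l2`),
ladders with the localisation maps, smoothness instances.   Statements FROZEN.
-/
import Fermat.Agent.S55.D.Setup

set_option autoImplicit false

noncomputable section

namespace Fermat.Agent.S55

open Module Function

variable {p : ℕ} [Fact p.Prime]

namespace Datum

variable (𝒜 : Datum p)
variable {X Y Z : Type} [AddCommGroup X] [Module (ZMod p) X] [AddCommGroup Y] [Module (ZMod p) Y]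
  [AddCommGroup Z] [Module (ZMod p) Z]
  {ρ : Representation (ZMod p) 𝒜.G X} {σ : Representation (ZMod p) 𝒜.G Y}
  {τ : Representation (ZMod p) 𝒜.G Z}

/-! ### instance shortcuts
(Lean fails to unify `Pi.addCommGroup.toAddCommMonoid` with `Pi.addCommMonoid` for these dependent
products of quotients of submodules of function spaces; with the two shortcuts below all generic
lemmas about `[AddCommGroup V] [Module k V]` apply to `P¹`, `P²`.) -/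

instance instModuleP1 (ρ : Representation (ZMod p) 𝒜.G X) :
    @Module (ZMod p) (𝒜.P1 ρ) _ (AddCommGroup.toAddCommMonoid) :=
  (inferInstance : @Module (ZMod p) (𝒜.P1 ρ) _ Pi.addCommMonoid)

instance instModuleP2 (ρ : Representation (ZMod p) 𝒜.G X) :
    @Module (ZMod p) (𝒜.P2 ρ) _ (AddCommGroup.toAddCommMonoid) :=
  (inferInstance : @Module (ZMod p) (𝒜.P2 ρ) _ Pi.addCommMonoid)

/-! ### coefficient maps -/

/-- coefficient pair over `D v` -/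
def cv (v : 𝒜.ι) (f : X →ₗ[ZMod p] Y) (hf : ∀ g x, f (ρ g x) = σ g (f x)) :
    Pair (𝒜.Lv v) (rsub ρ (𝒜.D v)) (𝒜.Lv v) (rsub σ (𝒜.D v)) :=
  Pair.coeff (𝒜.Lv v) f (fun h x => hf h x)

def g0 (f : X →ₗ[ZMod p] Y) (hf : ∀ g x, f (ρ g x) = σ g (f x)) :
    ↥(H0 ρ) →ₗ[ZMod p] ↥(H0 σ) := (Pair.coeff 𝒜.L f hf).map0
def g1 (f : X →ₗ[ZMod p] Y) (hf : ∀ g x, f (ρ g x) = σ g (f x)) :
    H1 𝒜.L ρ →ₗ[ZMod p] H1 𝒜.L σ := (Pair.coeff 𝒜.L f hf).map1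
def g2 (f : X →ₗ[ZMod p] Y) (hf : ∀ g x, f (ρ g x) = σ g (f x)) :
    H2 𝒜.L ρ →ₗ[ZMod p] H2 𝒜.L σ := (Pair.coeff 𝒜.L f hf).map2
def l0 (f : X →ₗ[ZMod p] Y) (hf : ∀ g x, f (ρ g x) = σ g (f x)) :
    𝒜.P0 ρ →ₗ[ZMod p] 𝒜.P0 σ := LinearMap.pi fun v => (𝒜.cv v f hf).map0 ∘ₗ LinearMap.proj v
def l1 (f : X →ₗ[ZMod p] Y) (hf : ∀ g x, f (ρ g x) = σ g (f x)) :
    𝒜.P1 ρ →ₗ[ZMod p] 𝒜.P1 σ := LinearMap.pi fun v => (𝒜.cv v f hf).map1 ∘ₗ LinearMap.proj v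
def l2 (f : X →ₗ[ZMod p] Y) (hf : ∀ g x, f (ρ g x) = σ g (f x)) :
    𝒜.P2 ρ →ₗ[ZMod p] 𝒜.P2 σ := LinearMap.pi fun v => (𝒜.cv v f hf).map2 ∘ₗ LinearMap.proj v

@[simp] lemma g0_coe (f : X →ₗ[ZMod p] Y) (hf : ∀ g x, f (ρ g x) = σ g (f x)) (x : ↥(H0 ρ)) :
    (𝒜.g0 f hf x : Y) = f x := rfl

@[simp] lemma l0_coe (f : X →ₗ[ZMod p] Y) (hf : ∀ g x, f (ρ g x) = σ g (f x)) (x : 𝒜.P0 ρ)
    (v : 𝒜.ι) : (𝒜.l0 f hf x v : Y) = f (x v) := rfl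

@[simp] lemma loc0_coe (x : ↥(H0 ρ)) (v : 𝒜.ι) : (𝒜.loc0 ρ x v : X) = x := rfl

lemma l1_apply (f : X →ₗ[ZMod p] Y) (hf : ∀ g x, f (ρ g x) = σ g (f x)) (x : 𝒜.P1 ρ)
    (v : 𝒜.ι) : 𝒜.l1 f hf x v = (𝒜.cv v f hf).map1 (x v) := rfl

lemma l2_apply (f : X →ₗ[ZMod p] Y) (hf : ∀ g x, f (ρ g x) = σ g (f x)) (x : 𝒜.P2 ρ)
    (v : 𝒜.ι) : 𝒜.l2 f hf x v = (𝒜.cv v f hf).map2 (x v) := rfl

/-- `loc⁰` is injective (there is at least one place). -/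
theorem loc0_injective (ρ : Representation (ZMod p) 𝒜.G X) : Injective (𝒜.loc0 ρ) := by
  intro x y h
  obtain ⟨v⟩ := 𝒜.ne
  have h1 := congrArg Subtype.val (congrFun h v)
  exact Subtype.ext h1

/-! ### ladders -/

theorem loc0_g0 (f : X →ₗ[ZMod p] Y) (hf : ∀ g x, f (ρ g x) = σ g (f x)) (x : ↥(H0 ρ)) :
    𝒜.loc0 σ (𝒜.g0 f hf x) = 𝒜.l0 f hf (𝒜.loc0 ρ x) := rfl

theorem loc1_g1 (f : X →ₗ[ZMod p] Y) (hf : ∀ g x, f (ρ g x) = σ g (f x)) (x : H1 𝒜.L ρ) :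
    𝒜.loc1 σ (𝒜.g1 f hf x) = 𝒜.l1 f hf (𝒜.loc1 ρ x) := by
  funext v
  change (𝒜.loc v σ).map1 ((Pair.coeff 𝒜.L f hf).map1 x)
    = (𝒜.cv v f hf).map1 ((𝒜.loc v ρ).map1 x)
  rw [← LinearMap.comp_apply, ← LinearMap.comp_apply, ← Pair.map1_comp, ← Pair.map1_comp]
  rw [Pair.map1_congr (P := (𝒜.loc v σ).comp (Pair.coeff 𝒜.L f hf))
    (Q := (𝒜.cv v f hf).comp (𝒜.loc v ρ)) rfl rfl]

theorem loc2_g2 (f : X →ₗ[ZMod p] Y) (hf : ∀ g x, f (ρ g x) = σ g (f x)) (x : H2 𝒜.L ρ) :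
    𝒜.loc2 σ (𝒜.g2 f hf x) = 𝒜.l2 f hf (𝒜.loc2 ρ x) := by
  funext v
  change (𝒜.loc v σ).map2 ((Pair.coeff 𝒜.L f hf).map2 x)
    = (𝒜.cv v f hf).map2 ((𝒜.loc v ρ).map2 x)
  rw [← LinearMap.comp_apply, ← LinearMap.comp_apply, ← Pair.map2_comp, ← Pair.map2_comp]
  rw [Pair.map2_congr (P := (𝒜.loc v σ).comp (Pair.coeff 𝒜.L f hf))
    (Q := (𝒜.cv v f hf).comp (𝒜.loc v ρ)) rfl rfl]

/-! ### functoriality (only what is needed for split sequences) -/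

theorem g2_comp_eq_id (f : X →ₗ[ZMod p] Y) (hf : ∀ g x, f (ρ g x) = σ g (f x))
    (s : Y →ₗ[ZMod p] X) (hs : ∀ g y, s (σ g y) = ρ g (s y)) (h : ∀ y, f (s y) = y)
    (z : H2 𝒜.L σ) : 𝒜.g2 f hf (𝒜.g2 s hs z) = z := by
  change (Pair.coeff 𝒜.L f hf).map2 ((Pair.coeff 𝒜.L s hs).map2 z) = z
  rw [← LinearMap.comp_apply, ← Pair.map2_comp]
  have : ((Pair.coeff 𝒜.L f hf).comp (Pair.coeff 𝒜.L s hs)).map2 = (Pair.id 𝒜.L σ).map2 :=
    Pair.map2_congr rfl (LinearMap.ext h)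
  rw [this, Pair.map2_id]
  rfl

/-! ### smoothness -/

omit [Fact p.Prime] in
lemma Maps_isOpen_finset_inf {H : Type} [Group H] (L : Levels H) {κ : Type} (s : Finset κ)
    (U : κ → Subgroup H) (h : ∀ i ∈ s, L.IsOpen (U i)) : L.IsOpen (s.inf U) := by
  classical
  induction s using Finset.induction_on with
  | empty => simpa using L.isOpen_top
  | insert a s ha ih =>
    rw [Finset.inf_insert]
    exact L.isOpen_inf (h a (Finset.mem_insert_self a s))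
      (ih (fun i hi => h i (Finset.mem_insert_of_mem hi)))

/-- finitely many vectors of a smooth representation are fixed by a common open subgroup -/
lemma Maps_exists_isOpen_fix (ρ : Representation (ZMod p) 𝒜.G X) [Smooth 𝒜.L ρ] {κ : Type}
    [Finite κ] (b : κ → X) : ∃ U : Subgroup 𝒜.G, 𝒜.L.IsOpen U ∧ ∀ s ∈ U, ∀ i, ρ s (b i) = b i := by
  classical
  have := Fintype.ofFinite κ
  choose U hU hfix using fun i => Smooth.exists_isOpen (L := 𝒜.L) (ρ := ρ) (b i)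
  refine ⟨Finset.univ.inf U, Maps_isOpen_finset_inf 𝒜.L _ U (fun i _ => hU i), fun s hs i => ?_⟩
  exact hfix i s ((Finset.inf_le (Finset.mem_univ i) : Finset.univ.inf U ≤ U i) hs)

lemma Maps_exists_trivial_on [FiniteDimensional (ZMod p) X] (ρ : Representation (ZMod p) 𝒜.G X)
    [Smooth 𝒜.L ρ] (U₀ : Subgroup 𝒜.G) (hU₀ : 𝒜.L.IsOpen U₀) :
    ∃ N : Subgroup 𝒜.G, 𝒜.L.IsOpen N ∧ N.Normal ∧ N ≤ U₀ ∧ N ≤ 𝒜.ω.ker ∧ ∀ n ∈ N, ρ n = 1 := by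
  let b := Module.finBasis (ZMod p) X
  obtain ⟨U, hU, hfix⟩ := 𝒜.Maps_exists_isOpen_fix ρ b
  obtain ⟨N, hN, hNle, hNn, -⟩ :=
    𝒜.L.exists_normal (𝒜.L.isOpen_inf (𝒜.L.isOpen_inf hU hU₀) 𝒜.ω_open)
  refine ⟨N, hN, hNn, fun n hn => (hNle hn).1.2, fun n hn => (hNle hn).2, fun n hn => ?_⟩
  apply b.ext
  intro i
  rw [hfix n (hNle hn).1.1 i]
  rfl

instance smooth_Lloc (ρ : Representation (ZMod p) 𝒜.G X) [Smooth 𝒜.L ρ] : Smooth 𝒜.Lloc ρ := by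
  constructor
  intro x
  obtain ⟨U, hU, h⟩ := Smooth.exists_isOpen (L := 𝒜.L) (ρ := ρ) x
  exact ⟨U, 𝒜.le U hU, h⟩

instance smooth_rsub (ρ : Representation (ZMod p) 𝒜.G X) [Smooth 𝒜.L ρ] (v : 𝒜.ι) :
    Smooth (𝒜.Lv v) (rsub ρ (𝒜.D v)) := by
  constructor
  intro x
  obtain ⟨U, hU, h⟩ := Smooth.exists_isOpen (L := 𝒜.L) (ρ := ρ) x
  exact ⟨U.comap (𝒜.D v).subtype, ⟨U, 𝒜.le U hU, le_rfl⟩, fun s hs => h s hs⟩

instance smooth_mu : Smooth 𝒜.L 𝒜.mu := by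
  constructor
  intro x
  refine ⟨𝒜.ω.ker, 𝒜.ω_open, fun s hs => ?_⟩
  have hs' : 𝒜.ω s = 1 := hs
  simp [mu, Representation.twist_apply_apply, hs']

instance smooth_triv : Smooth 𝒜.L 𝒜.triv :=
  ⟨fun _ => ⟨⊤, 𝒜.L.isOpen_top, fun _ _ => rfl⟩⟩

instance smooth_dualT [FiniteDimensional (ZMod p) X] (ρ : Representation (ZMod p) 𝒜.G X)
    [Smooth 𝒜.L ρ] : Smooth 𝒜.L (𝒜.dualT ρ) := by
  constructor
  intro φ
  obtain ⟨N, hN, -, -, hNω, hNρ⟩ := 𝒜.Maps_exists_trivial_on ρ ⊤ 𝒜.L.isOpen_top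
  refine ⟨N, hN, fun s hs => ?_⟩
  have hs' : 𝒜.ω s = 1 := hNω hs
  have hs'' : ρ s⁻¹ = 1 := hNρ _ (N.inv_mem hs)
  ext x
  simp [Representation.twist_apply_apply, Representation.dual_apply, hs', hs'',
    Module.Dual.transpose_apply]

/-- for an open subgroup `U`, `G ⧸ U` is finite -/
theorem finite_quotient (U : Subgroup 𝒜.G) (hU : 𝒜.L.IsOpen U) : Finite (𝒜.G ⧸ U) := by
  obtain ⟨N, -, hNU, -, hNf⟩ := 𝒜.L.exists_normal hU
  have : U.FiniteIndex := Subgroup.finiteIndex_of_le hNU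
  exact Subgroup.finite_quotient_of_finiteIndex

theorem smooth_Fun (ρ : Representation (ZMod p) 𝒜.G X) [Smooth 𝒜.L ρ] (U : Subgroup 𝒜.G)
    (hU : 𝒜.L.IsOpen U) : Smooth 𝒜.L (Fun ρ (𝒜.G ⧸ U)) := by
  constructor
  intro f
  have := 𝒜.finite_quotient U hU
  obtain ⟨V, hV, hfix⟩ := 𝒜.Maps_exists_isOpen_fix ρ f
  obtain ⟨N, hN, hNU, hNn, -⟩ := 𝒜.L.exists_normal hU
  refine ⟨V ⊓ N, 𝒜.L.isOpen_inf hV hN, fun s hs => ?_⟩
  funext w
  have hw : s⁻¹ • w = w := by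
    induction w using QuotientGroup.induction_on with
    | H g =>
      rw [MulAction.Quotient.smul_coe, QuotientGroup.eq]
      apply hNU
      have := hNn.conj_mem s hs.2 g⁻¹
      simpa [mul_assoc] using this
  rw [Fun_apply, hw, hfix s hs.1 w]

/-- a representation which embeds equivariantly into a smooth one is smooth -/
theorem smooth_of_injective (f : X →ₗ[ZMod p] Y) (hf : ∀ g x, f (ρ g x) = σ g (f x))
    (hinj : Injective f) [Smooth 𝒜.L σ] : Smooth 𝒜.L ρ := by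
  constructor
  intro x
  obtain ⟨U, hU, h⟩ := Smooth.exists_isOpen (L := 𝒜.L) (ρ := σ) (f x)
  exact ⟨U, hU, fun s hs => hinj (by rw [hf, h s hs])⟩

/-- an equivariant quotient of a smooth representation is smooth -/
theorem smooth_of_surjective (f : X →ₗ[ZMod p] Y) (hf : ∀ g x, f (ρ g x) = σ g (f x))
    (hsurj : Surjective f) [Smooth 𝒜.L ρ] : Smooth 𝒜.L σ := by
  constructor
  intro y
  obtain ⟨x, rfl⟩ := hsurj y
  obtain ⟨U, hU, h⟩ := Smooth.exists_isOpen (L := 𝒜.L) (ρ := ρ) x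
  exact ⟨U, hU, fun s hs => by rw [← hf, h s hs]⟩

/-- a finite dimensional smooth representation is trivial on an open normal subgroup, which can be
chosen inside `ker ω` and inside any given open subgroup. -/
theorem exists_trivial_on [FiniteDimensional (ZMod p) X] (ρ : Representation (ZMod p) 𝒜.G X)
    [Smooth 𝒜.L ρ] (U₀ : Subgroup 𝒜.G) (hU₀ : 𝒜.L.IsOpen U₀) :
    ∃ N : Subgroup 𝒜.G, 𝒜.L.IsOpen N ∧ N.Normal ∧ N ≤ U₀ ∧ N ≤ 𝒜.ω.ker ∧ ∀ n ∈ N, ρ n = 1 :=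
  𝒜.Maps_exists_trivial_on ρ U₀ hU₀

/-! ### the zero module -/

theorem chi_of_subsingleton [Subsingleton X] (ρ : Representation (ZMod p) 𝒜.G X) :
    𝒜.chi ρ = 0 := by
  simp only [chi, h0, h1, h2, Module.finrank_zero_of_subsingleton]
  rfl

theorem chiLoc_of_subsingleton [Subsingleton X] (ρ : Representation (ZMod p) 𝒜.G X) :
    𝒜.chiLoc ρ = 0 := by
  simp only [chiLoc, p0, p1, p2, Module.finrank_zero_of_subsingleton]
  rfl

end Datum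

end Fermat.Agent.S55

end
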