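/-
S55 / D / LES : THE interface between [D] and [A]: existence of connecting maps (global and on the
`Pⁱ`) with the two 9-term exact sequences and the ladder; existence of effacing embeddings.
Statements FROZEN.
-/
import Fermat.Agent.S55.D.Maps
import Fermat.Agent.S55.D.LinAlg
import Fermat.Agent.S55.Coh.Efface

set_option autoImplicit false

noncomputable section

namespace Fermat.Agent.S55

open Module Function

variable {p : ℕ} [Fact p.Prime]

namespace Datum

variable (𝒜 : Datum p)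

section
variable {A B C : Type} [AddCommGroup A] [Module (ZMod p) A] [AddCommGroup B] [Module (ZMod p) B]
  [AddCommGroup C] [Module (ZMod p) C]
  {ρA : Representation (ZMod p) 𝒜.G A} {ρB : Representation (ZMod p) 𝒜.G B}
  {ρC : Representation (ZMod p) 𝒜.G C}

/-- localisation at `v` as a morphism of short exact sequences. -/
def LES_locHom (E : SES ρA ρB ρC) (v : 𝒜.ι) : SES.Hom E (E.sub (𝒜.D v)) 𝒜.L (𝒜.Lv v) where
  PA := 𝒜.loc v ρA
  PB := 𝒜.loc v ρB
  PC := 𝒜.loc v ρC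
  fAB := rfl
  fBC := rfl
  comm_i _ := rfl
  comm_π _ := rfl

/-- the long exact sequences, global and local, and the ladder between them. -/
theorem exists_les (E : SES ρA ρB ρC) [Smooth 𝒜.L ρA] [Smooth 𝒜.L ρB] [Smooth 𝒜.L ρC] :
    ∃ (δ0 : ↥(H0 ρC) →ₗ[ZMod p] H1 𝒜.L ρA) (δ1 : H1 𝒜.L ρC →ₗ[ZMod p] H2 𝒜.L ρA)
      (δ0P : 𝒜.P0 ρC →ₗ[ZMod p] 𝒜.P1 ρA) (δ1P : 𝒜.P1 ρC →ₗ[ZMod p] 𝒜.P2 ρA),
      LA.Exact9 (𝒜.g0 E.i E.i_comm) (𝒜.g0 E.π E.π_comm) δ0
        (𝒜.g1 E.i E.i_comm) (𝒜.g1 E.π E.π_comm) δ1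
        (𝒜.g2 E.i E.i_comm) (𝒜.g2 E.π E.π_comm) ∧
      LA.Exact9 (A0 := 𝒜.P0 ρA) (B0 := 𝒜.P0 ρB) (C0 := 𝒜.P0 ρC) (A1 := 𝒜.P1 ρA) (B1 := 𝒜.P1 ρB)
        (C1 := 𝒜.P1 ρC) (A2 := 𝒜.P2 ρA) (B2 := 𝒜.P2 ρB) (C2 := 𝒜.P2 ρC)
        (𝒜.l0 E.i E.i_comm) (𝒜.l0 E.π E.π_comm) δ0P
        (𝒜.l1 E.i E.i_comm) (𝒜.l1 E.π E.π_comm) δ1P
        (𝒜.l2 E.i E.i_comm) (𝒜.l2 E.π E.π_comm) ∧
      (∀ c, 𝒜.loc1 ρA (δ0 c) = δ0P (𝒜.loc0 ρC c)) ∧
      (∀ c, 𝒜.loc2 ρA (δ1 c) = δ1P (𝒜.loc1 ρC c)) := by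
  refine ⟨E.δ0 𝒜.L, E.δ1 𝒜.L,
    LinearMap.pi fun v => (E.sub (𝒜.D v)).δ0 (𝒜.Lv v) ∘ₗ LinearMap.proj v,
    LinearMap.pi fun v => (E.sub (𝒜.D v)).δ1 (𝒜.Lv v) ∘ₗ LinearMap.proj v, ?_, ?_, ?_, ?_⟩
  · exact
      { inj := E.map0_i_injective 𝒜.L
        exB0 := E.exact_i0_π0 𝒜.L
        exC0 := E.exact_π0_δ0 𝒜.L
        exA1 := E.exact_δ0_i1 𝒜.L
        exB1 := E.exact_i1_π1 𝒜.L
        exC1 := E.exact_π1_δ1 𝒜.L
        exA2 := E.exact_δ1_i2 𝒜.L
        exB2 := E.exact_i2_π2 𝒜.L }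
  · exact
      { inj := by
          intro x y h
          funext v
          exact (E.sub (𝒜.D v)).map0_i_injective (𝒜.Lv v) (congrFun h v)
        exB0 := fun y => by
          constructor
          · intro hy
            have hv := fun v => ((E.sub (𝒜.D v)).exact_i0_π0 (𝒜.Lv v) (y v)).1 (congrFun hy v)
            choose x hx using hv
            exact ⟨x, funext hx⟩
          · rintro ⟨x, rfl⟩
            funext v
            exact ((E.sub (𝒜.D v)).exact_i0_π0 (𝒜.Lv v) _).2 ⟨x v, rfl⟩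
        exC0 := fun y => by
          constructor
          · intro hy
            have hv := fun v => ((E.sub (𝒜.D v)).exact_π0_δ0 (𝒜.Lv v) (y v)).1 (congrFun hy v)
            choose x hx using hv
            exact ⟨x, funext hx⟩
          · rintro ⟨x, rfl⟩
            funext v
            exact ((E.sub (𝒜.D v)).exact_π0_δ0 (𝒜.Lv v) _).2 ⟨x v, rfl⟩
        exA1 := fun y => by
          constructor
          · intro hy
            have hv := fun v => ((E.sub (𝒜.D v)).exact_δ0_i1 (𝒜.Lv v) (y v)).1 (congrFun hy v)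
            choose x hx using hv
            exact ⟨x, funext hx⟩
          · rintro ⟨x, rfl⟩
            funext v
            exact ((E.sub (𝒜.D v)).exact_δ0_i1 (𝒜.Lv v) _).2 ⟨x v, rfl⟩
        exB1 := fun y => by
          constructor
          · intro hy
            have hv := fun v => ((E.sub (𝒜.D v)).exact_i1_π1 (𝒜.Lv v) (y v)).1 (congrFun hy v)
            choose x hx using hv
            exact ⟨x, funext hx⟩
          · rintro ⟨x, rfl⟩
            funext v
            exact ((E.sub (𝒜.D v)).exact_i1_π1 (𝒜.Lv v) _).2 ⟨x v, rfl⟩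
        exC1 := fun y => by
          constructor
          · intro hy
            have hv := fun v => ((E.sub (𝒜.D v)).exact_π1_δ1 (𝒜.Lv v) (y v)).1 (congrFun hy v)
            choose x hx using hv
            exact ⟨x, funext hx⟩
          · rintro ⟨x, rfl⟩
            funext v
            exact ((E.sub (𝒜.D v)).exact_π1_δ1 (𝒜.Lv v) _).2 ⟨x v, rfl⟩
        exA2 := fun y => by
          constructor
          · intro hy
            have hv := fun v => ((E.sub (𝒜.D v)).exact_δ1_i2 (𝒜.Lv v) (y v)).1 (congrFun hy v)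
            choose x hx using hv
            exact ⟨x, funext hx⟩
          · rintro ⟨x, rfl⟩
            funext v
            exact ((E.sub (𝒜.D v)).exact_δ1_i2 (𝒜.Lv v) _).2 ⟨x v, rfl⟩
        exB2 := fun y => by
          constructor
          · intro hy
            have hv := fun v => ((E.sub (𝒜.D v)).exact_i2_π2 (𝒜.Lv v) (y v)).1 (congrFun hy v)
            choose x hx using hv
            exact ⟨x, funext hx⟩
          · rintro ⟨x, rfl⟩
            funext v
            exact ((E.sub (𝒜.D v)).exact_i2_π2 (𝒜.Lv v) _).2 ⟨x v, rfl⟩ }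
  · intro c
    funext v
    exact (𝒜.LES_locHom E v).δ0_comm c
  · intro c
    funext v
    exact (𝒜.LES_locHom E v).δ1_comm c

end

/-- effacing embedding: if `H¹(G;X)` is finite dimensional, `X` embeds into a (finite dimensional,
smooth) `I` (namely `Fun(G/U,X)`) such that `H¹(G;X) → H¹(G;I)` is zero. -/
theorem exists_effacing {X : Type} [AddCommGroup X] [Module (ZMod p) X]
    [FiniteDimensional (ZMod p) X] (ρ : Representation (ZMod p) 𝒜.G X) [Smooth 𝒜.L ρ]
    [FiniteDimensional (ZMod p) (H1 𝒜.L ρ)] :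
    ∃ (I : Type) (_ : AddCommGroup I) (_ : Module (ZMod p) I) (_ : FiniteDimensional (ZMod p) I)
      (ρI : Representation (ZMod p) 𝒜.G I) (_ : Smooth 𝒜.L ρI)
      (Q : Type) (_ : AddCommGroup Q) (_ : Module (ZMod p) Q) (_ : FiniteDimensional (ZMod p) Q)
      (ρQ : Representation (ZMod p) 𝒜.G Q) (_ : Smooth 𝒜.L ρQ)
      (E : SES ρ ρI ρQ), ∀ x, 𝒜.g1 E.i E.i_comm x = 0 := by
  obtain ⟨N, hN, hNn, hNf, hkill⟩ := exists_efface1_fg (L := 𝒜.L) (ρ := ρ) ⊤
    (Module.finite_def.1 inferInstance)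
  have : Finite (𝒜.G ⧸ N) := Levels.finite_quotient hN
  have : 𝒜.L.SmoothSet (𝒜.G ⧸ N) := Levels.smoothSet_quotient' hN
  exact ⟨𝒜.G ⧸ N → X, inferInstance, inferInstance, inferInstance, Fun ρ (𝒜.G ⧸ N), inferInstance,
    (𝒜.G ⧸ N → X) ⧸ LinearMap.range (constMap (ZMod p) X (𝒜.G ⧸ N)), inferInstance, inferInstance,
    inferInstance, cokerRep (constMap (ZMod p) X (𝒜.G ⧸ N)) (constMap_comm ρ (𝒜.G ⧸ N)),
    inferInstance, constSES ρ (𝒜.G ⧸ N), fun x => hkill x Submodule.mem_top⟩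

end Datum

end Fermat.Agent.S55

end
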