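/-
S55 / D / DualPair : dual pairs of representations `(X, Y, β : X × Y → μ)`, adjoint maps,
dual pairs of short exact sequences.   Statements FROZEN.
-/
import Fermat.Agent.S55.Coh.Func
import Fermat.Prelude.Def_GroupCohomology_Selmer

set_option autoImplicit false

noncomputable section

namespace Fermat.Agent.S55

open Module Function

variable {k : Type} [Field k] {G : Type} [Group G] {ω : G →* kˣ}

/-- A perfect equivariant pairing `β : X × Y → μ = k(ω)`. -/
structure DualPair (ω : G →* kˣ) {X Y : Type} [AddCommGroup X] [Module k X]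
    [AddCommGroup Y] [Module k Y] (ρ : Representation k G X) (σ : Representation k G Y) where
  β : X →ₗ[k] Y →ₗ[k] k
  equi : ∀ g x y, β (ρ g x) (σ g y) = (ω g : k) * β x y
  perf : β.IsPerfPair

namespace DualPair

section one
variable {X Y : Type} [AddCommGroup X] [Module k X] [AddCommGroup Y] [Module k Y]
  {ρ : Representation k G X} {σ : Representation k G Y}

/-- swap the two sides -/
def flip (d : DualPair ω ρ σ) : DualPair ω σ ρ where
  β := d.β.flip
  equi g y x := d.equi g x y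
  perf := d.perf.flip

@[simp] lemma flip_β (d : DualPair ω ρ σ) (x : X) (y : Y) : d.flip.β y x = d.β x y := rfl

lemma left (d : DualPair ω ρ σ) (x : X) (h : ∀ y, d.β x y = 0) : x = 0 := by
  have := d.perf
  apply (LinearMap.IsPerfPair.bijective_left d.β).1
  rw [map_zero]
  ext y
  exact h y

lemma right (d : DualPair ω ρ σ) (y : Y) (h : ∀ x, d.β x y = 0) : y = 0 := by
  have := d.perf
  apply (LinearMap.IsPerfPair.bijective_right d.β).1
  rw [map_zero]
  ext x
  exact h x

/-- every functional on `X` is `β(·,y)` -/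
lemma exists_right (d : DualPair ω ρ σ) (φ : X →ₗ[k] k) : ∃ y, ∀ x, d.β x y = φ x := by
  have := d.perf
  obtain ⟨y, hy⟩ := (LinearMap.IsPerfPair.bijective_right d.β).2 φ
  exact ⟨y, fun x => LinearMap.congr_fun hy x⟩

/-- constructor for finite dimensional spaces -/
def ofNondeg [FiniteDimensional k X] (β : X →ₗ[k] Y →ₗ[k] k)
    (equi : ∀ g x y, β (ρ g x) (σ g y) = (ω g : k) * β x y)
    (left : ∀ x, (∀ y, β x y = 0) → x = 0) (right : ∀ y, (∀ x, β x y = 0) → y = 0) :
    DualPair ω ρ σ where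
  β := β
  equi := equi
  perf := LinearMap.IsPerfPair.of_injective
    ((injective_iff_map_eq_zero β).2 fun x hx => left x fun y => by rw [hx]; rfl)
    ((injective_iff_map_eq_zero β.flip).2 fun y hy => right y fun x => by
      rw [← LinearMap.flip_apply, hy]; rfl)

/-- the canonical dual pair `(X, X' = Hom(X, μ))`. -/
def canon (ω : G →* kˣ) (ρ : Representation k G X) [FiniteDimensional k X] :
    DualPair ω ρ (ρ.dual.twist ω) where
  β := Module.Dual.eval k X
  equi := fun g x φ => by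
    have hx : ρ g⁻¹ (ρ g x) = x := by
      rw [← Module.End.mul_apply, ← map_mul, inv_mul_cancel, map_one, Module.End.one_apply]
    simp [Representation.twist_apply_apply, Representation.dual_apply, Module.Dual.transpose_apply,
      hx]
  perf := inferInstance

@[simp] lemma canon_β (ρ : Representation k G X) [FiniteDimensional k X] (x : X)
    (φ : Module.Dual k X) : (canon ω ρ).β x φ = φ x := rfl

lemma finrank_eq (d : DualPair ω ρ σ) : finrank k X = finrank k Y := by
  have := d.perf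
  by_cases hX : Module.Finite k X
  · exact Module.finrank_of_isPerfPair d.β
  · have hY : ¬ Module.Finite k Y := fun hY =>
      hX (Module.Finite.equiv d.β.toPerfPair.symm)
    rw [Module.finrank_of_not_finite hX, Module.finrank_of_not_finite hY]

lemma finite_right (d : DualPair ω ρ σ) [FiniteDimensional k X] : FiniteDimensional k Y := by
  have := d.perf
  exact Module.Finite.equiv d.β.flip.toPerfPair.symm

/-- `β(g x, y) = ω(g) β(x, g⁻¹ y)`. -/
lemma equi' (d : DualPair ω ρ σ) (g : G) (x : X) (y : Y) :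
    d.β (ρ g x) y = (ω g : k) * d.β x (σ g⁻¹ y) := by
  rw [← d.equi g x (σ g⁻¹ y), ← Module.End.mul_apply, ← map_mul, mul_inv_cancel, map_one,
    Module.End.one_apply]

/-- if `y` is fixed by `g` then `β(·,y)` is `g`-equivariant `X → μ`. -/
lemma equi_of_fixed (d : DualPair ω ρ σ) (g : G) (x : X) (y : Y) (hy : σ g y = y) :
    d.β (ρ g x) y = (ω g : k) * d.β x y := by
  rw [← d.equi g x y, hy]

/-- conversely -/
lemma fixed_of_equi (d : DualPair ω ρ σ) (g : G) (y : Y)
    (h : ∀ x, d.β (ρ g x) y = (ω g : k) * d.β x y) : σ g y = y := by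
  rw [← sub_eq_zero]
  apply d.right
  intro x
  have hx : ρ g (ρ g⁻¹ x) = x := by
    rw [← Module.End.mul_apply, ← map_mul, mul_inv_cancel, map_one, Module.End.one_apply]
  rw [map_sub, sub_eq_zero]
  conv_lhs => rw [← hx]
  conv_rhs => rw [← hx]
  rw [d.equi, h]

end one

section two
variable {X₁ Y₁ X₂ Y₂ X₃ Y₃ : Type} [AddCommGroup X₁] [Module k X₁] [AddCommGroup Y₁] [Module k Y₁]
  [AddCommGroup X₂] [Module k X₂] [AddCommGroup Y₂] [Module k Y₂]
  [AddCommGroup X₃] [Module k X₃] [AddCommGroup Y₃] [Module k Y₃]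
  {ρ₁ : Representation k G X₁} {σ₁ : Representation k G Y₁}
  {ρ₂ : Representation k G X₂} {σ₂ : Representation k G Y₂}
  {ρ₃ : Representation k G X₃} {σ₃ : Representation k G Y₃}

/-- the adjoint `f* : Y₂ → Y₁` of `f : X₁ → X₂`:  `β₁(x, f* y) = β₂(f x, y)`. -/
def adj (d₁ : DualPair ω ρ₁ σ₁) (d₂ : DualPair ω ρ₂ σ₂) (f : X₁ →ₗ[k] X₂) : Y₂ →ₗ[k] Y₁ :=
  haveI := d₁.perf
  (d₁.β.flip.toPerfPair.symm : Module.Dual k X₁ →ₗ[k] Y₁) ∘ₗ f.dualMap ∘ₗ d₂.β.flip

lemma adj_spec (d₁ : DualPair ω ρ₁ σ₁) (d₂ : DualPair ω ρ₂ σ₂) (f : X₁ →ₗ[k] X₂) (x : X₁)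
    (y : Y₂) : d₁.β x (adj d₁ d₂ f y) = d₂.β (f x) y := by
  have := d₁.perf
  exact LinearMap.apply_toPerfPair_flip d₁.β (f.dualMap (d₂.β.flip y)) x

lemma adj_unique (d₁ : DualPair ω ρ₁ σ₁) (d₂ : DualPair ω ρ₂ σ₂) (f : X₁ →ₗ[k] X₂)
    (f' : Y₂ →ₗ[k] Y₁) (h : ∀ x y, d₁.β x (f' y) = d₂.β (f x) y) : f' = adj d₁ d₂ f := by
  ext y
  rw [← sub_eq_zero]
  apply d₁.right
  intro x
  rw [map_sub, h, adj_spec, sub_self]

lemma adj_equi (d₁ : DualPair ω ρ₁ σ₁) (d₂ : DualPair ω ρ₂ σ₂) (f : X₁ →ₗ[k] X₂)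
    (hf : ∀ g x, f (ρ₁ g x) = ρ₂ g (f x)) (g : G) (y : Y₂) :
    adj d₁ d₂ f (σ₂ g y) = σ₁ g (adj d₁ d₂ f y) := by
  rw [← sub_eq_zero]
  apply d₁.right
  intro x
  have hx : ρ₁ g (ρ₁ g⁻¹ x) = x := by
    rw [← Module.End.mul_apply, ← map_mul, mul_inv_cancel, map_one, Module.End.one_apply]
  rw [map_sub, sub_eq_zero, adj_spec]
  conv_lhs => rw [← hx]
  conv_rhs => rw [← hx]
  rw [hf, d₂.equi, d₁.equi, adj_spec]

lemma adj_injective (d₁ : DualPair ω ρ₁ σ₁) (d₂ : DualPair ω ρ₂ σ₂) (f : X₁ →ₗ[k] X₂)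
    (hf : Surjective f) : Injective (adj d₁ d₂ f) := by
  rw [injective_iff_map_eq_zero]
  intro y hy
  apply d₂.right
  intro x
  obtain ⟨x', rfl⟩ := hf x
  rw [← adj_spec d₁ d₂, hy, map_zero]

lemma adj_surjective (d₁ : DualPair ω ρ₁ σ₁) (d₂ : DualPair ω ρ₂ σ₂) (f : X₁ →ₗ[k] X₂)
    (hf : Injective f) : Surjective (adj d₁ d₂ f) := by
  intro y₁
  obtain ⟨φ, hφ⟩ := LinearMap.dualMap_surjective_of_injective hf (d₁.β.flip y₁)
  obtain ⟨y₂, hy₂⟩ := d₂.exists_right φ
  refine ⟨y₂, ?_⟩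
  rw [← sub_eq_zero]
  apply d₁.right
  intro x
  rw [map_sub, adj_spec, hy₂, sub_eq_zero]
  exact LinearMap.congr_fun hφ x

lemma adj_exact (d₁ : DualPair ω ρ₁ σ₁) (d₂ : DualPair ω ρ₂ σ₂) (d₃ : DualPair ω ρ₃ σ₃)
    (f : X₁ →ₗ[k] X₂) (g : X₂ →ₗ[k] X₃) (h : Exact f g) (hg : Surjective g) :
    Exact (adj d₂ d₃ g) (adj d₁ d₂ f) := by
  intro y₂
  constructor
  · intro hy
    -- `β₂(·,y₂)` kills `ker g = range f`, so it factors through `g`
    have hker : LinearMap.ker g ≤ LinearMap.ker (d₂.β.flip y₂) := by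
      intro x hx
      obtain ⟨x₁, rfl⟩ := (h x).1 hx
      rw [LinearMap.mem_ker, LinearMap.flip_apply, ← adj_spec d₁ d₂, hy, map_zero]
    obtain ⟨s, hs⟩ := g.exists_rightInverse_of_surjective (LinearMap.range_eq_top.2 hg)
    obtain ⟨y₃, hy₃⟩ := d₃.exists_right ((d₂.β.flip y₂).comp s)
    refine ⟨y₃, ?_⟩
    rw [← sub_eq_zero]
    apply d₂.right
    intro x
    rw [map_sub, adj_spec, hy₃, sub_eq_zero, LinearMap.comp_apply, LinearMap.flip_apply,
      ← sub_eq_zero, ← LinearMap.map_sub₂]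
    have hx : s (g x) - x ∈ LinearMap.ker g := by
      rw [LinearMap.mem_ker, map_sub, sub_eq_zero]
      exact LinearMap.congr_fun hs (g x)
    exact hker hx
  · rintro ⟨y₃, rfl⟩
    apply d₁.right
    intro x
    rw [adj_spec, adj_spec, h.apply_apply_eq_zero, map_zero, LinearMap.zero_apply]

end two

end DualPair

section SESs
variable {A B C A' B' C' : Type} [AddCommGroup A] [Module k A] [AddCommGroup B] [Module k B]
  [AddCommGroup C] [Module k C] [AddCommGroup A'] [Module k A'] [AddCommGroup B'] [Module k B']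
  [AddCommGroup C'] [Module k C']
  {ρA : Representation k G A} {ρB : Representation k G B} {ρC : Representation k G C}
  {σA : Representation k G A'} {σB : Representation k G B'} {σC : Representation k G C'}

/-- a short exact sequence `0→A→B→C→0` together with a dual sequence `0→C'→B'→A'→0`. -/
structure DualSES (dA : DualPair ω ρA σA) (dB : DualPair ω ρB σB) (dC : DualPair ω ρC σC) where
  E : SES ρA ρB ρC
  E' : SES σC σB σA
  adj_i : ∀ a b', dB.β (E.i a) b' = dA.β a (E'.π b')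
  adj_π : ∀ b c', dC.β (E.π b) c' = dB.β b (E'.i c')

/-- exchange the roles of the two sequences -/
def DualSES.flip {dA : DualPair ω ρA σA} {dB : DualPair ω ρB σB} {dC : DualPair ω ρC σC}
    (T : DualSES dA dB dC) : DualSES dC.flip dB.flip dA.flip where
  E := T.E'
  E' := T.E
  adj_i c' b := (T.adj_π b c').symm
  adj_π b' a := (T.adj_i a b').symm

/-- every short exact sequence has a dual, for arbitrary dual partners -/
def DualSES.of (E : SES ρA ρB ρC) (dA : DualPair ω ρA σA) (dB : DualPair ω ρB σB)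
    (dC : DualPair ω ρC σC) : DualSES dA dB dC where
  E := E
  E' :=
    { i := DualPair.adj dB dC E.π
      π := DualPair.adj dA dB E.i
      i_comm := fun g y => DualPair.adj_equi dB dC E.π E.π_comm g y
      π_comm := fun g y => DualPair.adj_equi dA dB E.i E.i_comm g y
      inj := DualPair.adj_injective dB dC E.π E.surj
      surj := DualPair.adj_surjective dA dB E.i E.inj
      exact := DualPair.adj_exact dA dB dC E.i E.π E.exact E.surj }
  adj_i a b' := (DualPair.adj_spec dA dB E.i a b').symm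
  adj_π b c' := (DualPair.adj_spec dB dC E.π b c').symm

@[simp] lemma DualSES.of_E (E : SES ρA ρB ρC) (dA : DualPair ω ρA σA) (dB : DualPair ω ρB σB)
    (dC : DualPair ω ρC σC) : (DualSES.of E dA dB dC).E = E := rfl

end SESs

end Fermat.Agent.S55

end
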