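/-
S55 / D / Pairing : the total local pairing `P²(X) × P⁰(Y) → 𝔽_p` of a dual pair `(X,Y)`:
perfect (L1), natural (adjoint maps), and global classes are orthogonal (G1).
Statements FROZEN.
-/
import Fermat.Agent.S55.D.Maps
import Fermat.Agent.S55.D.DualPair
import Fermat.Agent.S55.D.LinAlg

set_option autoImplicit false

noncomputable section

namespace Fermat.Agent.S55

open Module Function

variable {p : ℕ} [Fact p.Prime] {𝒜 : Datum p}
variable {X Y : Type} [AddCommGroup X] [Module (ZMod p) X] [AddCommGroup Y] [Module (ZMod p) Y]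
  {ρ : Representation (ZMod p) 𝒜.G X} {σ : Representation (ZMod p) 𝒜.G Y}

namespace Datum

lemma mu_apply (g : 𝒜.G) (a : ZMod p) : 𝒜.mu g a = (𝒜.ω g : ZMod p) * a := rfl

/-- `β(·,y) : X → μ` as a coefficient pair over `D v`, for `y ∈ H⁰(D_v;Y)`. -/
def toMu (d : DualPair 𝒜.ω ρ σ) (v : 𝒜.ι) (y : ↥(H0 (rsub σ (𝒜.D v)))) :
    Pair (𝒜.Lv v) (rsub ρ (𝒜.D v)) (𝒜.Lv v) (rsub 𝒜.mu (𝒜.D v)) :=
  Pair.coeff _ (d.β.flip y) (fun h x => d.equi_of_fixed h x y (y.2 h))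

/-- `β(·,y) : X → μ` as a coefficient pair over `G`, for `y ∈ H⁰(G;Y)`. -/
def toMuG (d : DualPair 𝒜.ω ρ σ) (y : ↥(H0 σ)) : Pair 𝒜.L ρ 𝒜.L 𝒜.mu :=
  Pair.coeff _ (d.β.flip y) (fun h x => d.equi_of_fixed h x y (y.2 h))

lemma toMu_map2_add (d : DualPair 𝒜.ω ρ σ) (v : 𝒜.ι) (y y' : ↥(H0 (rsub σ (𝒜.D v))))
    (z : H2 (𝒜.Lv v) (rsub ρ (𝒜.D v))) :
    (toMu d v (y + y')).map2 z = (toMu d v y).map2 z + (toMu d v y').map2 z := by
  obtain ⟨z, rfl⟩ := H2.mk_surjective _ _ z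
  rw [Pair.map2_mk, Pair.map2_mk, Pair.map2_mk, ← map_add]
  congr 1
  apply Subtype.ext
  funext h
  simp [toMu, Pair.coeff]

lemma toMu_map2_smul (d : DualPair 𝒜.ω ρ σ) (v : 𝒜.ι) (c : ZMod p)
    (y : ↥(H0 (rsub σ (𝒜.D v)))) (z : H2 (𝒜.Lv v) (rsub ρ (𝒜.D v))) :
    (toMu d v (c • y)).map2 z = c • (toMu d v y).map2 z := by
  obtain ⟨z, rfl⟩ := H2.mk_surjective _ _ z
  rw [Pair.map2_mk, Pair.map2_mk, ← map_smul]
  congr 1
  apply Subtype.ext
  funext h
  simp [toMu, Pair.coeff]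

end Datum

namespace Datum.Axioms

variable (ax : 𝒜.Axioms)

/-- total local pairing `P²(X) × P⁰(Y) → 𝔽_p` -/
def pairP (d : DualPair 𝒜.ω ρ σ) : 𝒜.P2 ρ →ₗ[ZMod p] 𝒜.P0 σ →ₗ[ZMod p] ZMod p :=
  LinearMap.mk₂ (ZMod p) (fun z y => ∑ v, ax.lam v ((toMu d v (y v)).map2 (z v)))
    (fun z z' y => by simp only [Pi.add_apply, map_add, Finset.sum_add_distrib])
    (fun c z y => by simp only [Pi.smul_apply, map_smul, Finset.smul_sum])
    (fun z y y' => by
      simp only [Pi.add_apply, toMu_map2_add, map_add, Finset.sum_add_distrib])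
    (fun c z y => by simp only [Pi.smul_apply, toMu_map2_smul, map_smul, Finset.smul_sum])

theorem pairP_apply (d : DualPair 𝒜.ω ρ σ) (z : 𝒜.P2 ρ) (y : 𝒜.P0 σ) :
    ax.pairP d z y = ∑ v, ax.lam v ((toMu d v (y v)).map2 (z v)) := rfl

/-- D0: the total pairing is perfect -/
theorem pairP_perf [FiniteDimensional (ZMod p) X] [Smooth 𝒜.L ρ] (d : DualPair 𝒜.ω ρ σ) :
    LA.Perf (ax.pairP d) := by
  classical
  have hzero : ∀ (w : 𝒜.ι) (z : H2 (𝒜.Lv w) (rsub ρ (𝒜.D w))), (toMu d w 0).map2 z = 0 := by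
    intro w z
    have h := toMu_map2_smul d w 0 0 z
    rwa [zero_smul, zero_smul] at h
  constructor
  · intro z hz
    funext v
    apply ax.L1_left ρ v (z v)
    intro φ
    obtain ⟨y0, hy0⟩ := d.exists_right (φ : Module.Dual (ZMod p) X)
    have hinv : y0 ∈ H0 (rsub σ (𝒜.D v)) := by
      intro h
      apply d.fixed_of_equi (h : 𝒜.G) y0
      intro x
      rw [hy0, hy0]
      exact 𝒜.dualT_invariant_apply ρ (𝒜.D v) φ h x
    have h1 := hz (Pi.single v ⟨y0, hinv⟩)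
    rw [pairP_apply, Finset.sum_eq_single v] at h1
    · rw [Pi.single_eq_same] at h1
      rw [← h1]
      congr 1
      have h2 : (𝒜.evPair v ρ φ).map2 = (toMu d v ⟨y0, hinv⟩).map2 :=
        Pair.map2_congr rfl (LinearMap.ext fun x => (hy0 x).symm)
      rw [h2]
    · intro w _ hw
      rw [Pi.single_eq_of_ne hw, hzero, map_zero]
    · intro h
      exact absurd (Finset.mem_univ v) h
  · intro y hy
    funext v
    have hinv : d.β.flip (y v : Y) ∈ H0 (rsub (𝒜.dualT ρ) (𝒜.D v)) := by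
      intro h
      apply LinearMap.ext
      intro x
      have h2 := d.equi_of_fixed (h : 𝒜.G) (ρ (h : 𝒜.G)⁻¹ x) (y v : Y) ((y v).2 h)
      rw [← Module.End.mul_apply, ← map_mul, mul_inv_cancel, map_one, Module.End.one_apply] at h2
      simp only [MonoidHom.comp_apply, Subgroup.coe_subtype, Representation.twist_apply_apply,
        LinearMap.smul_apply, Representation.dual_apply, Module.Dual.transpose_apply,
        LinearMap.comp_apply, LinearMap.flip_apply]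
      rw [h2]
      rfl
    have h0 : (⟨d.β.flip (y v : Y), hinv⟩ : ↥(H0 (rsub (𝒜.dualT ρ) (𝒜.D v)))) = 0 := by
      apply ax.L1_right ρ v
      intro zv
      have h1 := hy (Pi.single v zv)
      rw [pairP_apply, Finset.sum_eq_single v] at h1
      · rw [Pi.single_eq_same] at h1
        rw [← h1]
        congr 1
      · intro w _ hw
        rw [Pi.single_eq_of_ne hw, map_zero, map_zero]
      · intro h
        exact absurd (Finset.mem_univ v) h
    apply Subtype.ext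
    apply d.right
    intro x
    have h3 := congrArg (fun ψ : ↥(H0 (rsub (𝒜.dualT ρ) (𝒜.D v))) =>
      (ψ : Module.Dual (ZMod p) X) x) h0
    exact h3

/-- naturality: adjoint maps are adjoint for the total pairings -/
theorem pairP_adj {X₂ Y₂ : Type} [AddCommGroup X₂] [Module (ZMod p) X₂] [AddCommGroup Y₂]
    [Module (ZMod p) Y₂] {ρ₂ : Representation (ZMod p) 𝒜.G X₂}
    {σ₂ : Representation (ZMod p) 𝒜.G Y₂} (d : DualPair 𝒜.ω ρ σ) (d₂ : DualPair 𝒜.ω ρ₂ σ₂)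
    (f : X →ₗ[ZMod p] X₂) (hf : ∀ g x, f (ρ g x) = ρ₂ g (f x))
    (f' : Y₂ →ₗ[ZMod p] Y) (hf' : ∀ g y, f' (σ₂ g y) = σ g (f' y))
    (adj : ∀ x y, d₂.β (f x) y = d.β x (f' y)) (z : 𝒜.P2 ρ) (y : 𝒜.P0 σ₂) :
    ax.pairP d₂ (𝒜.l2 f hf z) y = ax.pairP d z (𝒜.l0 f' hf' y) := by
  rw [pairP_apply, pairP_apply]
  refine Finset.sum_congr rfl fun v _ => ?_
  congr 1
  rw [Datum.l2_apply, ← LinearMap.comp_apply, ← Pair.map2_comp]
  have h2 : ((toMu d₂ v (y v)).comp (𝒜.cv v f hf)).map2 = (toMu d v (𝒜.l0 f' hf' y v)).map2 :=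
    Pair.map2_congr rfl (LinearMap.ext fun x => adj x (y v))
  rw [h2]

/-- reciprocity: global classes are orthogonal to global invariants -/
theorem pairP_loc_loc (d : DualPair 𝒜.ω ρ σ) (z : H2 𝒜.L ρ) (y : ↥(H0 σ)) :
    ax.pairP d (𝒜.loc2 ρ z) (𝒜.loc0 σ y) = 0 := by
  rw [pairP_apply, ← ax.G1 ((toMuG d y).map2 z)]
  refine Finset.sum_congr rfl fun v _ => ?_
  congr 1
  have h1 : 𝒜.loc2 ρ z v = (𝒜.loc v ρ).map2 z := rfl
  rw [h1, ← LinearMap.comp_apply, ← LinearMap.comp_apply, ← Pair.map2_comp, ← Pair.map2_comp]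
  exact LinearMap.congr_fun (Pair.map2_congr rfl rfl) z

end Datum.Axioms

end Fermat.Agent.S55

end
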