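/-
S55 / D / Numerics : D0, D1, D2 of the blueprint (part 2), for dual pairs.
Statements FROZEN.
-/
import Fermat.Agent.S55.D.Pairing
import Fermat.Agent.S55.D.LES

set_option autoImplicit false
set_option linter.unusedSectionVars false

noncomputable section

namespace Fermat.Agent.S55

open Module Function

variable {p : ℕ} [Fact p.Prime] {𝒜 : Datum p}

/-- `E(X,Y) = χ(X) + χ(Y) - χ_loc(X)` for a dual pair `(X,Y)`. -/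
def Datum.EP (𝒜 : Datum p) {X Y : Type} [AddCommGroup X] [Module (ZMod p) X] [AddCommGroup Y]
    [Module (ZMod p) Y] (ρ : Representation (ZMod p) 𝒜.G X) (σ : Representation (ZMod p) 𝒜.G Y) :
    ℤ := 𝒜.chi ρ + 𝒜.chi σ - 𝒜.chiLoc ρ

lemma Datum.E_eq_EP (𝒜 : Datum p) {X : Type} [AddCommGroup X] [Module (ZMod p) X]
    (ρ : Representation (ZMod p) 𝒜.G X) : 𝒜.E ρ = 𝒜.EP ρ (𝒜.dualT ρ) := rfl

namespace Datum.Axioms

variable (ax : 𝒜.Axioms)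

section one
variable {X Y : Type} [AddCommGroup X] [Module (ZMod p) X] [AddCommGroup Y] [Module (ZMod p) Y]
  [FiniteDimensional (ZMod p) X] [FiniteDimensional (ZMod p) Y]
  {ρ : Representation (ZMod p) 𝒜.G X} {σ : Representation (ZMod p) 𝒜.G Y}
  [Smooth 𝒜.L ρ] [Smooth 𝒜.L σ]

include ax

theorem finP1 (ρ : Representation (ZMod p) 𝒜.G X) [Smooth 𝒜.L ρ] :
    FiniteDimensional (ZMod p) (𝒜.P1 ρ) := by
  have := fun v => ax.finLoc1 ρ v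
  exact Module.Finite.pi (R := ZMod p) (ι := 𝒜.ι) (M := fun v => H1 (𝒜.Lv v) (rsub ρ (𝒜.D v)))

theorem finP2 (ρ : Representation (ZMod p) 𝒜.G X) [Smooth 𝒜.L ρ] :
    FiniteDimensional (ZMod p) (𝒜.P2 ρ) := by
  have := fun v => ax.finLoc2 ρ v
  exact Module.Finite.pi (R := ZMod p) (ι := 𝒜.ι) (M := fun v => H2 (𝒜.Lv v) (rsub ρ (𝒜.D v)))

theorem h1_eq (ρ : Representation (ZMod p) 𝒜.G X) [Smooth 𝒜.L ρ] :
    𝒜.h1 ρ = 𝒜.s1 ρ + 𝒜.r1 ρ := by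
  have := ax.fin1 ρ
  have h := LinearMap.finrank_range_add_finrank_ker (K := ZMod p) (V := H1 𝒜.L ρ)
    (V₂ := 𝒜.P1 ρ) (𝒜.loc1 ρ)
  unfold Datum.h1 Datum.s1 Datum.r1 Datum.Sha1
  omega

theorem h2_eq (ρ : Representation (ZMod p) 𝒜.G X) [Smooth 𝒜.L ρ] :
    𝒜.h2 ρ = 𝒜.s2 ρ + 𝒜.r2 ρ := by
  have := ax.fin2 ρ
  have h := LinearMap.finrank_range_add_finrank_ker (K := ZMod p) (V := H2 𝒜.L ρ)
    (V₂ := 𝒜.P2 ρ) (𝒜.loc2 ρ)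
  unfold Datum.h2 Datum.s2 Datum.r2 Datum.Sha2
  omega

/-- D0 -/
theorem p2_eq_p0 (d : DualPair 𝒜.ω ρ σ) : 𝒜.p2 ρ = 𝒜.p0 σ := by
  have := ax.finP2 ρ
  have h := (ax.pairP_perf d).finrank_eq
  unfold Datum.p2 Datum.p0
  exact_mod_cast h

/-- D1 : `t ≥ 0` -/
theorem h0_le_c (d : DualPair 𝒜.ω ρ σ) : 𝒜.h0 σ ≤ 𝒜.c ρ := by
  have := ax.finP2 ρ
  have h := (ax.pairP_perf d).finrank_add_le (LinearMap.range (𝒜.loc2 ρ))
    (LinearMap.range (𝒜.loc0 σ)) (by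
      rintro _ ⟨z, rfl⟩ _ ⟨y, rfl⟩
      exact ax.pairP_loc_loc d z y)
  rw [LinearMap.finrank_range_of_inj (𝒜.loc0_injective σ)] at h
  unfold Datum.h0 Datum.c Datum.p2 Datum.r2
  omega

/-- D2 : the bookkeeping identity -/
theorem EP_eq (d : DualPair 𝒜.ω ρ σ) :
    𝒜.EP ρ σ = (𝒜.s2 ρ - 𝒜.s1 σ) + (𝒜.s2 σ - 𝒜.s1 ρ) + (𝒜.p1 ρ - 𝒜.r1 ρ - 𝒜.r1 σ)
      - (𝒜.c ρ - 𝒜.h0 σ) - (𝒜.c σ - 𝒜.h0 ρ) := by
  have e1 := ax.h1_eq ρ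
  have e2 := ax.h2_eq ρ
  have e3 := ax.h1_eq σ
  have e4 := ax.h2_eq σ
  have e5 := ax.p2_eq_p0 d.flip
  unfold Datum.EP Datum.chi Datum.chiLoc Datum.c
  linarith

end one

/-- `E(0) = 0` -/
theorem E_of_subsingleton {X : Type} [AddCommGroup X] [Module (ZMod p) X] [Subsingleton X]
    (ρ : Representation (ZMod p) 𝒜.G X) : 𝒜.E ρ = 0 := by
  unfold Datum.E
  rw [𝒜.chi_of_subsingleton ρ, 𝒜.chi_of_subsingleton (𝒜.dualT ρ), 𝒜.chiLoc_of_subsingleton ρ]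
  rfl

end Datum.Axioms

end Fermat.Agent.S55

end
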