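/-
S55 / D / NumSES : A7, D0 (right exactness of local H², additivity of χ_loc), D6 of the blueprint
(part 2), for dual pairs of short exact sequences.   Statements FROZEN.
-/
import Fermat.Agent.S55.D.Numerics

set_option autoImplicit false

noncomputable section

namespace Fermat.Agent.S55

open Module Function

variable {p : ℕ} [Fact p.Prime] {𝒜 : Datum p}

namespace Datum.Axioms

variable (ax : 𝒜.Axioms)

section SESs
variable {A B C A' B' C' : Type}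
  [AddCommGroup A] [Module (ZMod p) A] [FiniteDimensional (ZMod p) A]
  [AddCommGroup B] [Module (ZMod p) B] [FiniteDimensional (ZMod p) B]
  [AddCommGroup C] [Module (ZMod p) C] [FiniteDimensional (ZMod p) C]
  [AddCommGroup A'] [Module (ZMod p) A'] [FiniteDimensional (ZMod p) A']
  [AddCommGroup B'] [Module (ZMod p) B'] [FiniteDimensional (ZMod p) B']
  [AddCommGroup C'] [Module (ZMod p) C'] [FiniteDimensional (ZMod p) C']
  {ρA : Representation (ZMod p) 𝒜.G A} {ρB : Representation (ZMod p) 𝒜.G B}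
  {ρC : Representation (ZMod p) 𝒜.G C} [Smooth 𝒜.L ρA] [Smooth 𝒜.L ρB] [Smooth 𝒜.L ρC]
  {σA : Representation (ZMod p) 𝒜.G A'} {σB : Representation (ZMod p) 𝒜.G B'}
  {σC : Representation (ZMod p) 𝒜.G C'} [Smooth 𝒜.L σA] [Smooth 𝒜.L σB] [Smooth 𝒜.L σC]

include ax

/-- A7 -/
theorem chi_le_add (E : SES ρA ρB ρC) : 𝒜.chi ρB ≤ 𝒜.chi ρA + 𝒜.chi ρC := by
  obtain ⟨δ0, δ1, δ0P, δ1P, hG, -, -, -⟩ := 𝒜.exists_les E
  have := ax.fin1 ρA; have := ax.fin1 ρB; have := ax.fin1 ρC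
  have := ax.fin2 ρA; have := ax.fin2 ρB; have := ax.fin2 ρC
  have h := hG.euler
  have h2 : (finrank (ZMod p) (LinearMap.range (𝒜.g2 E.π E.π_comm)) : ℤ)
      ≤ finrank (ZMod p) (H2 𝒜.L ρC) := by
    exact_mod_cast Submodule.finrank_le _
  simp only [Datum.chi, Datum.h0, Datum.h1, Datum.h2]
  linarith

/-- A7 -/
theorem chi_eq_add (E : SES ρA ρB ρC) (h : Surjective (𝒜.g2 E.π E.π_comm)) :
    𝒜.chi ρB = 𝒜.chi ρA + 𝒜.chi ρC := by
  obtain ⟨δ0, δ1, δ0P, δ1P, hG, -, -, -⟩ := 𝒜.exists_les E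
  have := ax.fin1 ρA; have := ax.fin1 ρB; have := ax.fin1 ρC
  have := ax.fin2 ρA; have := ax.fin2 ρB; have := ax.fin2 ρC
  have h' := hG.euler
  rw [LinearMap.range_eq_top.mpr h, finrank_top] at h'
  simp only [Datum.chi, Datum.h0, Datum.h1, Datum.h2]
  linarith

/-- D0 : local `H²` is right exact -/
theorem l2_surjective (E : SES ρA ρB ρC) : Surjective (𝒜.l2 E.π E.π_comm) := by
  let T := DualSES.of E (DualPair.canon 𝒜.ω ρA) (DualPair.canon 𝒜.ω ρB) (DualPair.canon 𝒜.ω ρC)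
  have := ax.finP2 ρB; have := ax.finP2 ρC
  refine LA.Perf.surjective_of_adjoint (P := 𝒜.P2 ρB) (T := 𝒜.P0 (𝒜.dualT ρB))
    (P' := 𝒜.P2 ρC) (T' := 𝒜.P0 (𝒜.dualT ρC))
    (B := ax.pairP (DualPair.canon 𝒜.ω ρB)) (B' := ax.pairP (DualPair.canon 𝒜.ω ρC))
    (ax.pairP_perf _) (ax.pairP_perf _) (𝒜.l2 E.π E.π_comm) (𝒜.l0 T.E'.i T.E'.i_comm)
    (fun z t => ax.pairP_adj _ _ E.π E.π_comm T.E'.i T.E'.i_comm T.adj_π z t) ?_
  intro x y hxy
  funext v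
  apply Subtype.ext
  apply T.E'.inj
  have := congrArg (fun w : 𝒜.P0 (𝒜.dualT ρB) => ((w v : _) : Module.Dual (ZMod p) B)) hxy
  simpa using this

/-- D0 -/
theorem chiLoc_add (E : SES ρA ρB ρC) : 𝒜.chiLoc ρB = 𝒜.chiLoc ρA + 𝒜.chiLoc ρC := by
  obtain ⟨δ0, δ1, δ0P, δ1P, -, hL, -, -⟩ := 𝒜.exists_les E
  have := ax.finP1 ρA; have := ax.finP1 ρB; have := ax.finP1 ρC
  have := ax.finP2 ρA; have := ax.finP2 ρB; have := ax.finP2 ρC
  have h' := hL.euler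
  rw [LinearMap.range_eq_top.mpr (ax.l2_surjective E), finrank_top] at h'
  simp only [Datum.chiLoc, Datum.p0, Datum.p1, Datum.p2]
  linarith

/-- D6 -/
theorem EP_le_add {dA : DualPair 𝒜.ω ρA σA} {dB : DualPair 𝒜.ω ρB σB} {dC : DualPair 𝒜.ω ρC σC}
    (T : DualSES dA dB dC) : 𝒜.EP ρB σB ≤ 𝒜.EP ρA σA + 𝒜.EP ρC σC := by
  have h1 := ax.chi_le_add T.E
  have h2 := ax.chi_le_add T.E'
  have h3 := ax.chiLoc_add T.E
  simp only [Datum.EP]
  linarith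

/-- D6 for split sequences -/
theorem EP_eq_add_of_split {dA : DualPair 𝒜.ω ρA σA} {dB : DualPair 𝒜.ω ρB σB}
    {dC : DualPair 𝒜.ω ρC σC} (T : DualSES dA dB dC) (s : C →ₗ[ZMod p] B)
    (hs : ∀ g c, s (ρC g c) = ρB g (s c)) (hπs : ∀ c, T.E.π (s c) = c) :
    𝒜.EP ρB σB = 𝒜.EP ρA σA + 𝒜.EP ρC σC := by
  have h1 := ax.chi_eq_add T.E
    (fun z => ⟨𝒜.g2 s hs z, 𝒜.g2_comp_eq_id T.E.π T.E.π_comm s hs hπs z⟩)
  -- the retraction of `i`
  let q : B →ₗ[ZMod p] B := LinearMap.id - s ∘ₗ T.E.π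
  have hq : ∀ b, q b ∈ LinearMap.range T.E.i := fun b => by
    rw [← (LinearMap.exact_iff.mp T.E.exact), LinearMap.mem_ker]
    simp [q, hπs]
  let r : B →ₗ[ZMod p] A :=
    ((LinearEquiv.ofInjective T.E.i T.E.inj).symm : _ →ₗ[ZMod p] A) ∘ₗ
      q.codRestrict (LinearMap.range T.E.i) hq
  have hir : ∀ b, T.E.i (r b) = b - s (T.E.π b) := fun b => by
    simp [r, q]
  have hri : ∀ a, r (T.E.i a) = a := fun a => by
    apply T.E.inj
    rw [hir, T.E.exact.apply_apply_eq_zero, map_zero, sub_zero]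
  have hr : ∀ g b, r (ρB g b) = ρA g (r b) := fun g b => by
    apply T.E.inj
    rw [hir, T.E.i_comm, hir, T.E.π_comm, hs, map_sub]
  let s' : A' →ₗ[ZMod p] B' := DualPair.adj dB dA r
  have hs' : ∀ g a', s' (σA g a') = σB g (s' a') := DualPair.adj_equi dB dA r hr
  have hπs' : ∀ a', T.E'.π (s' a') = a' := fun a' => by
    rw [← sub_eq_zero]
    apply dA.right
    intro a
    rw [map_sub, ← T.adj_i, DualPair.adj_spec, hri, sub_self]
  have h2 := ax.chi_eq_add T.E'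
    (fun z => ⟨𝒜.g2 s' hs' z, 𝒜.g2_comp_eq_id T.E'.π T.E'.π_comm s' hs' hπs' z⟩)
  have h3 := ax.chiLoc_add T.E
  simp only [Datum.EP]
  linarith

/-- D6, canonical duals -/
theorem E_le_add (E : SES ρA ρB ρC) : 𝒜.E ρB ≤ 𝒜.E ρA + 𝒜.E ρC :=
  ax.EP_le_add (DualSES.of E (DualPair.canon 𝒜.ω ρA) (DualPair.canon 𝒜.ω ρB)
    (DualPair.canon 𝒜.ω ρC))

/-- D6 for split sequences, canonical duals -/
theorem E_eq_add_of_split (E : SES ρA ρB ρC) (s : C →ₗ[ZMod p] B)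
    (hs : ∀ g c, s (ρC g c) = ρB g (s c)) (hπs : ∀ c, E.π (s c) = c) :
    𝒜.E ρB = 𝒜.E ρA + 𝒜.E ρC :=
  ax.EP_eq_add_of_split (DualSES.of E (DualPair.canon 𝒜.ω ρA) (DualPair.canon 𝒜.ω ρB)
    (DualPair.canon 𝒜.ω ρC)) s hs hπs

end SESs

end Datum.Axioms

end Fermat.Agent.S55

end
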