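/-
S55 / D / FZ : D7, first half: `E(Fun(G/U₁,X)) ≤ 0` if `U₁ ≤ ker ω` acts on `X` through a finite
`p`-group.   Statement FROZEN.
-/
import Fermat.Agent.S55.D.NumSES
import Fermat.Agent.S55.D.Inv

set_option autoImplicit false

noncomputable section

namespace Fermat.Agent.S55

open Module Function

namespace FZaux

variable {p : ℕ} [Fact p.Prime] {G : Type} [Group G] {X : Type} [AddCommGroup X]
  [Module (ZMod p) X] (ρ : Representation (ZMod p) G X) (U : Subgroup G)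

/-- functions `f : G/U → X` with `g⁻¹ f(gU) ∈ Z` for all `g`. -/
def FZ (Z : Submodule (ZMod p) X) : Submodule (ZMod p) (G ⧸ U → X) where
  carrier := {f | ∀ g : G, ρ g⁻¹ (f (g : G ⧸ U)) ∈ Z}
  add_mem' := by
    intro a b ha hb g
    simp only [Pi.add_apply, map_add]
    exact Z.add_mem (ha g) (hb g)
  zero_mem' := by
    intro g
    simp
  smul_mem' := by
    intro c a ha g
    simp only [Pi.smul_apply, map_smul]
    exact Z.smul_mem c (ha g)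

lemma mem_FZ {Z : Submodule (ZMod p) X} {f : G ⧸ U → X} :
    f ∈ FZ ρ U Z ↔ ∀ g : G, ρ g⁻¹ (f (g : G ⧸ U)) ∈ Z := Iff.rfl

lemma FZ_top : FZ ρ U ⊤ = ⊤ := by
  rw [eq_top_iff]
  intro f _ g
  exact Submodule.mem_top

lemma rho_inv_cancel (g : G) (x : X) : ρ g (ρ g⁻¹ x) = x := by
  rw [← Module.End.mul_apply, ← map_mul, mul_inv_cancel, map_one, Module.End.one_apply]

lemma rho_inv_cancel' (g : G) (x : X) : ρ g⁻¹ (ρ g x) = x := by
  rw [← Module.End.mul_apply, ← map_mul, inv_mul_cancel, map_one, Module.End.one_apply]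

lemma FZ_bot : FZ ρ U ⊥ = ⊥ := by
  rw [eq_bot_iff]
  intro f hf
  rw [Submodule.mem_bot]
  funext w
  induction w using QuotientGroup.induction_on with
  | H g =>
    have h := hf g
    rw [Submodule.mem_bot] at h
    have h2 := rho_inv_cancel ρ g (f (g : G ⧸ U))
    rw [h, map_zero] at h2
    exact h2.symm

/-- `Λ f w = l ((w.out)⁻¹ f(w))` -/
def Lam (l : X →ₗ[ZMod p] ZMod p) : (G ⧸ U → X) →ₗ[ZMod p] (G ⧸ U → ZMod p) where
  toFun f w := l (ρ (w.out)⁻¹ (f w))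
  map_add' f f' := by
    funext w
    simp
  map_smul' c f := by
    funext w
    simp

lemma Lam_apply (l : X →ₗ[ZMod p] ZMod p) (f : G ⧸ U → X) (w : G ⧸ U) :
    Lam ρ U l f w = l (ρ (w.out)⁻¹ (f w)) := rfl

variable {ρ U}

lemma Lam_mk {l : X →ₗ[ZMod p] ZMod p} {Z : Submodule (ZMod p) X}
    (hl : ∀ u ∈ U, ∀ z ∈ Z, l (ρ u z) = l z) {f : G ⧸ U → X} (hf : f ∈ FZ ρ U Z) (g : G) :
    Lam ρ U l f (g : G ⧸ U) = l (ρ g⁻¹ (f (g : G ⧸ U))) := by
  obtain ⟨u, hu⟩ := QuotientGroup.mk_out_eq_mul U g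
  rw [Lam_apply, hu, mul_inv_rev, map_mul, Module.End.mul_apply]
  exact hl _ (U.inv_mem u.2) _ (hf g)

/-- the section used for surjectivity -/
lemma sec_mem_FZ {Z : Submodule (ZMod p) X} (hZ : ∀ u ∈ U, Z ≤ Z.comap (ρ u)) {z₀ : X}
    (hz₀ : z₀ ∈ Z) (a : G ⧸ U → ZMod p) :
    (fun w : G ⧸ U => a w • ρ (w.out) z₀) ∈ FZ ρ U Z := by
  intro g
  obtain ⟨u, hu⟩ := QuotientGroup.mk_out_eq_mul U g
  simp only [map_smul]
  apply Z.smul_mem
  rw [hu, map_mul, Module.End.mul_apply, rho_inv_cancel']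
  exact hZ u u.2 hz₀

lemma Lam_sec {l : X →ₗ[ZMod p] ZMod p} {z₀ : X} (h1 : l z₀ = 1) (a : G ⧸ U → ZMod p) :
    Lam ρ U l (fun w : G ⧸ U => a w • ρ (w.out) z₀) = a := by
  funext w
  rw [Lam_apply, map_smul, rho_inv_cancel', map_smul, h1, smul_eq_mul, mul_one]

lemma finrank_inf_ker [FiniteDimensional (ZMod p) X] {l : X →ₗ[ZMod p] ZMod p}
    {Z : Submodule (ZMod p) X} {z₀ : X} (hz₀ : z₀ ∈ Z) (h1 : l z₀ = 1) :
    finrank (ZMod p) ↥(Z ⊓ LinearMap.ker l) + 1 = finrank (ZMod p) ↥Z := by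
  have hsurj : Surjective (l.domRestrict Z) := by
    intro c
    refine ⟨c • ⟨z₀, hz₀⟩, ?_⟩
    rw [map_smul, LinearMap.domRestrict_apply, h1, smul_eq_mul, mul_one]
  have h2 := LinearMap.finrank_range_add_finrank_ker (l.domRestrict Z)
  rw [LinearMap.range_eq_top.2 hsurj, finrank_top, finrank_self] at h2
  have h3 : (LinearMap.ker (l.domRestrict Z)).map Z.subtype = Z ⊓ LinearMap.ker l := by
    ext x
    simp only [Submodule.mem_map, LinearMap.mem_ker, LinearMap.domRestrict_apply,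
      Submodule.subtype_apply, Subtype.exists, exists_and_right, exists_eq_right,
      Submodule.mem_inf]
    constructor
    · rintro ⟨h, h'⟩; exact ⟨h, h'⟩
    · rintro ⟨h, h'⟩; exact ⟨h, h'⟩
  rw [← h3, Submodule.finrank_map_subtype_eq, ← h2, add_comm]

end FZaux

variable {p : ℕ} [Fact p.Prime] {𝒜 : Datum p}

namespace Datum.Axioms

variable (ax : 𝒜.Axioms)
variable {X : Type} [AddCommGroup X] [Module (ZMod p) X] [FiniteDimensional (ZMod p) X]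
  (ρ : Representation (ZMod p) 𝒜.G X) [Smooth 𝒜.L ρ]

include ax

open FZaux in
/-- the inductive claim of D7 -/
theorem FZ_claim (U₁ N : Subgroup 𝒜.G) (hN : 𝒜.L.IsOpen N) (hNU : N ≤ U₁) (hNn : N.Normal)
    (hNX : ∀ n ∈ N, ρ n = 1) (hU₁ : U₁ ≤ 𝒜.ω.ker)
    (hp : IsPGroup p (↥U₁ ⧸ N.subgroupOf U₁)) (n : ℕ) :
    ∀ (Z : Submodule (ZMod p) X), (∀ u ∈ U₁, Z ≤ Z.comap (ρ u)) → finrank (ZMod p) ↥Z = n →
    ∀ (W : Type) [AddCommGroup W] [Module (ZMod p) W] [FiniteDimensional (ZMod p) W]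
      (τ : Representation (ZMod p) 𝒜.G W) [Smooth 𝒜.L τ]
      (j : W →ₗ[ZMod p] (𝒜.G ⧸ U₁ → X)),
      (∀ g w, j (τ g w) = Fun ρ (𝒜.G ⧸ U₁) g (j w)) → Injective j →
      LinearMap.range j = FZ ρ U₁ Z → 𝒜.E τ ≤ 0 := by
  have hU₁o : 𝒜.L.IsOpen U₁ := 𝒜.L.isOpen_mono hN hNU
  have hfin : Finite (𝒜.G ⧸ U₁) := 𝒜.finite_quotient U₁ hU₁o
  induction n with
  | zero =>
    intro Z _ hZn W _ _ _ τ _ j _ hinj hrange
    have hZ0 : Z = ⊥ := Submodule.finrank_eq_zero.1 hZn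
    rw [hZ0, FZ_bot, LinearMap.range_eq_bot] at hrange
    have : Subsingleton W := ⟨fun a b => hinj (by rw [hrange]; rfl)⟩
    exact (Datum.Axioms.E_of_subsingleton τ).le
  | succ n ih =>
    intro Z hZ hZn W _ _ _ τ _ j hj hinj hrange
    have hZ0 : Z ≠ ⊥ := by
      rintro rfl
      rw [finrank_bot] at hZn
      omega
    obtain ⟨l, hl, z₁, hz₁, hlz₁⟩ := exists_invariant_functional ρ U₁ N hNU hNn hNX hp Z hZ hZ0
    set z₀ : X := (l z₁)⁻¹ • z₁ with hz₀def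
    have hz₀ : z₀ ∈ Z := Z.smul_mem _ hz₁
    have hlz₀ : l z₀ = 1 := by
      rw [hz₀def, map_smul, smul_eq_mul, inv_mul_cancel₀ hlz₁]
    set Z₁ : Submodule (ZMod p) X := Z ⊓ LinearMap.ker l with hZ₁def
    have hZ₁ : ∀ u ∈ U₁, Z₁ ≤ Z₁.comap (ρ u) := by
      intro u hu z hz
      refine ⟨hZ u hu hz.1, ?_⟩
      rw [SetLike.mem_coe, LinearMap.mem_ker, hl u hu z hz.1]
      exact hz.2
    have hZ₁n : finrank (ZMod p) ↥Z₁ = n := by
      have h3 := finrank_inf_ker (Z := Z) (l := l) hz₀ hlz₀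
      rw [← hZ₁def] at h3
      omega
    have hjmem : ∀ w, j w ∈ FZ ρ U₁ Z := fun w => hrange ▸ LinearMap.mem_range_self j w
    set q : W →ₗ[ZMod p] (𝒜.G ⧸ U₁ → ZMod p) := (Lam ρ U₁ l).comp j with hqdef
    have hq_mk : ∀ w (g : 𝒜.G), q w (g : 𝒜.G ⧸ U₁) = l (ρ g⁻¹ (j w (g : 𝒜.G ⧸ U₁))) :=
      fun w g => Lam_mk hl (hjmem w) g
    have hq_comm : ∀ g w, q (τ g w) = Fun 𝒜.triv (𝒜.G ⧸ U₁) g (q w) := by
      intro g w
      funext w'
      induction w' using QuotientGroup.induction_on with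
      | H h =>
        rw [hq_mk, hj, Fun_apply, Fun_apply, Representation.trivial_apply]
        have h1 : g⁻¹ • (h : 𝒜.G ⧸ U₁) = ((g⁻¹ * h : 𝒜.G) : 𝒜.G ⧸ U₁) := rfl
        rw [h1, hq_mk, mul_inv_rev, inv_inv, map_mul, Module.End.mul_apply]
    have hq_surj : Surjective q := by
      intro a
      have hmem := sec_mem_FZ hZ hz₀ a
      rw [← hrange] at hmem
      obtain ⟨w, hw⟩ := hmem
      refine ⟨w, ?_⟩
      rw [hqdef, LinearMap.comp_apply, hw, Lam_sec hlz₀]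
    set W₁ : Submodule (ZMod p) W := LinearMap.ker q with hW₁def
    have hW₁ : ∀ g, W₁ ≤ W₁.comap (τ g) := by
      intro g w hw
      rw [Submodule.mem_comap, hW₁def, LinearMap.mem_ker, hq_comm,
        (LinearMap.mem_ker.1 hw), map_zero]
    set τ₁ : Representation (ZMod p) 𝒜.G ↥W₁ := τ.subrepresentation W₁ hW₁ with hτ₁def
    have hτ₁comm : ∀ g (w : ↥W₁), W₁.subtype (τ₁ g w) = τ g (W₁.subtype w) := fun g w => rfl
    have hsm₁ : Smooth 𝒜.L τ₁ :=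
      𝒜.smooth_of_injective (ρ := τ₁) (σ := τ) W₁.subtype hτ₁comm W₁.subtype_injective
    have hsmF : Smooth 𝒜.L (Fun 𝒜.triv (𝒜.G ⧸ U₁)) := 𝒜.smooth_Fun 𝒜.triv U₁ hU₁o
    have hrange₁ : LinearMap.range (j.comp W₁.subtype) = FZ ρ U₁ Z₁ := by
      apply le_antisymm
      · rintro _ ⟨w, rfl⟩ g
        refine ⟨hjmem w g, ?_⟩
        rw [SetLike.mem_coe, LinearMap.mem_ker]
        have h1 := hq_mk (w : W) g
        rw [LinearMap.mem_ker.1 w.2] at h1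
        exact h1.symm
      · intro f hf
        have hfZ : f ∈ FZ ρ U₁ Z := fun g => (hf g).1
        rw [← hrange] at hfZ
        obtain ⟨w, rfl⟩ := hfZ
        have hw : w ∈ W₁ := by
          rw [hW₁def, LinearMap.mem_ker]
          funext w'
          induction w' using QuotientGroup.induction_on with
          | H h =>
            rw [hq_mk]
            exact (hf h).2
        exact ⟨⟨w, hw⟩, rfl⟩
    have hE₁ : 𝒜.E τ₁ ≤ 0 :=
      ih Z₁ hZ₁ hZ₁n ↥W₁ τ₁ (j.comp W₁.subtype)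
        (fun g w => by
          rw [LinearMap.comp_apply, hτ₁comm, hj]; rfl)
        (hinj.comp W₁.subtype_injective) hrange₁
    have hEF : 𝒜.E (Fun 𝒜.triv (𝒜.G ⧸ U₁)) ≤ 0 := ax.bE U₁ hU₁o hU₁
    let S : SES τ₁ τ (Fun 𝒜.triv (𝒜.G ⧸ U₁)) :=
      { i := W₁.subtype
        π := q
        i_comm := hτ₁comm
        π_comm := hq_comm
        inj := W₁.subtype_injective
        surj := hq_surj
        exact := LinearMap.exact_subtype_ker_map q }
    have := ax.E_le_add S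
    linarith

/-- D7, first half. -/
theorem E_Fun_le_zero (U₁ N : Subgroup 𝒜.G) (hN : 𝒜.L.IsOpen N) (hNU : N ≤ U₁) (hNn : N.Normal)
    (hNX : ∀ n ∈ N, ρ n = 1) (hU₁ : U₁ ≤ 𝒜.ω.ker)
    (hp : IsPGroup p (↥U₁ ⧸ N.subgroupOf U₁)) :
    𝒜.E (Fun ρ (𝒜.G ⧸ U₁)) ≤ 0 := by
  have hU₁o : 𝒜.L.IsOpen U₁ := 𝒜.L.isOpen_mono hN hNU
  have hfin : Finite (𝒜.G ⧸ U₁) := 𝒜.finite_quotient U₁ hU₁o
  have hsm : Smooth 𝒜.L (Fun ρ (𝒜.G ⧸ U₁)) := 𝒜.smooth_Fun ρ U₁ hU₁o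
  exact ax.FZ_claim ρ U₁ N hN hNU hNn hNX hU₁ hp (finrank (ZMod p) ↥(⊤ : Submodule (ZMod p) X)) ⊤
    (fun _ _ _ _ => Submodule.mem_top) rfl (𝒜.G ⧸ U₁ → X) (Fun ρ (𝒜.G ⧸ U₁)) LinearMap.id
    (fun _ _ => rfl) injective_id (by rw [LinearMap.range_id, FZaux.FZ_top])

end Datum.Axioms

end Fermat.Agent.S55

end
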