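/-
S55 / D / LinAlgD4 : pure linear algebra, abstract form of D4 of the blueprint (part 2).
Statement FROZEN.
-/
import Fermat.Agent.S55.D.LinAlg

set_option autoImplicit false

noncomputable section

namespace Fermat.Agent.S55.LA

open Module Function

variable {k : Type} [Field k]

/-! ### D4 -/

/-- **D4**, abstract form.  Dictionary (`0→X→I→Q→0`, dual `0→Q*→I*→X*→0`):
`HQ = H⁰(Q)`, `HX = H¹(X)`, `HX' = H¹(X*)`, `HQ2 = H²(Q*)`, `PI = P⁰(I)`, `PQ = P⁰(Q)`,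
`PX = P¹(X)`, `PX' = P¹(X*)`, `PQ2 = P²(Q*)`, `PI2 = P²(I*)`. -/
theorem D4 {HQ HX HX' HQ2 PI PQ PX PX' PQ2 PI2 : Type}
    [AddCommGroup HQ] [Module k HQ] [AddCommGroup HX] [Module k HX]
    [AddCommGroup HX'] [Module k HX'] [AddCommGroup HQ2] [Module k HQ2]
    [AddCommGroup PI] [Module k PI] [AddCommGroup PQ] [Module k PQ]
    [AddCommGroup PX] [Module k PX] [AddCommGroup PX'] [Module k PX']
    [AddCommGroup PQ2] [Module k PQ2] [AddCommGroup PI2] [Module k PI2]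
    [FiniteDimensional k PI] [FiniteDimensional k PQ] [FiniteDimensional k PX]
    [FiniteDimensional k PX'] [FiniteDimensional k PQ2] [FiniteDimensional k PI2]
    (δ : HQ →ₗ[k] HX) (hδ : Surjective δ)
    (π0 : PI →ₗ[k] PQ) (δP : PQ →ₗ[k] PX) (ex1 : Exact π0 δP)
    (locQ : HQ →ₗ[k] PQ) (locX : HX →ₗ[k] PX) (lad1 : ∀ q, locX (δ q) = δP (locQ q))
    (δ' : HX' →ₗ[k] HQ2) (δP' : PX' →ₗ[k] PQ2) (j2 : PQ2 →ₗ[k] PI2) (ex2 : Exact δP' j2)
    (locX' : HX' →ₗ[k] PX') (locQ2 : HQ2 →ₗ[k] PQ2)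
    (lad2 : ∀ x, locQ2 (δ' x) = δP' (locX' x))
    (BQ : PQ2 →ₗ[k] PQ →ₗ[k] k) (BI : PI2 →ₗ[k] PI →ₗ[k] k) (hBQ : Perf BQ) (hBI : Perf BI)
    (adj : ∀ z s, BI (j2 z) s = BQ z (π0 s))
    (orth : ∀ z q, BQ (locQ2 z) (locQ q) = 0) :
    finrank k (LinearMap.range locX) + finrank k (LinearMap.range locX') ≤ finrank k PX' := by
  have hk1 : LinearMap.ker δP = LinearMap.range π0 := LinearMap.exact_iff.mp ex1
  have hk2 : LinearMap.ker j2 = LinearMap.range δP' := LinearMap.exact_iff.mp ex2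
  set T0 : Submodule k PQ := LinearMap.range π0 with hT0
  set T1 : Submodule k PQ := T0 ⊔ LinearMap.range locQ with hT1
  -- (E1)
  have hA : LinearMap.range locX = T1.map δP := by
    apply le_antisymm
    · rintro _ ⟨x, rfl⟩
      obtain ⟨q, rfl⟩ := hδ x
      rw [lad1]
      exact Submodule.mem_map_of_mem (Submodule.mem_sup_right ⟨q, rfl⟩)
    · rw [hT1, Submodule.map_sup]
      refine sup_le ?_ ?_
      · rintro _ ⟨t, ht, rfl⟩
        have : t ∈ LinearMap.ker δP := hk1 ▸ ht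
        rw [LinearMap.mem_ker.mp this]
        exact Submodule.zero_mem _
      · rintro _ ⟨_, ⟨q, rfl⟩, rfl⟩
        exact ⟨δ q, lad1 q⟩
  have hinf : T1 ⊓ LinearMap.ker δP = T0 := by
    rw [hk1]
    exact inf_eq_right.mpr le_sup_left
  have E1 := finrank_map_add δP T1
  rw [hinf, ← hA] at E1
  -- (E2)
  have E2 := finrank_map_add δP' (LinearMap.range locX')
  have E2' : finrank k (LinearMap.range locX' ⊓ LinearMap.ker δP' : Submodule k PX') ≤
      finrank k (LinearMap.ker δP') := Submodule.finrank_mono inf_le_right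
  -- (E3)
  have E3 := hBQ.finrank_add_le ((LinearMap.range locX').map δP') T1 (by
    rintro _ ⟨_, ⟨x, rfl⟩, rfl⟩ w hw
    obtain ⟨t, ⟨s, rfl⟩, r, ⟨q, rfl⟩, rfl⟩ := Submodule.mem_sup.mp hw
    rw [map_add, ← adj, (ex2 _).mpr ⟨_, rfl⟩, ← lad2, orth]
    simp)
  -- (E4)
  have E4 := LinearMap.finrank_range_add_finrank_ker δP'
  have E5 := LinearMap.finrank_range_add_finrank_ker j2
  rw [hk2] at E5
  have E6 : finrank k (LinearMap.range j2) = finrank k T0 := hBQ.rank_adjoint hBI j2 π0 adj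
  omega

end Fermat.Agent.S55.LA

end
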