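/-
S55 / D / LinAlgD5 : pure linear algebra, abstract form of D5 of the blueprint (part 2).
Statement FROZEN.
-/
import Fermat.Agent.S55.D.LinAlg

set_option autoImplicit false

noncomputable section

namespace Fermat.Agent.S55.LA

open Module Function

variable {k : Type} [Field k]

/-! ### D5 -/

/-- **D5**, abstract form.  Dictionary (`0→N→I→M→0`, dual `0→M*→I*→N*→0`):
`M0 I0 N0 = H⁰(M*), H⁰(I*), H⁰(N*)`, `M1 I1 = H¹(M*), H¹(I*)`, `N2 I2 M2 = H²(N), H²(I), H²(M)`,
`PI0 PN0 = P⁰(I*), P⁰(N*)`, `PM1 = P¹(M*)`, `PN2 PI2 PM2 = P²(N), P²(I), P²(M)`. -/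
theorem D5 {M0 I0 N0 M1 I1 N2 I2 M2 PI0 PN0 PM1 PN2 PI2 PM2 : Type}
    [AddCommGroup M0] [Module k M0] [AddCommGroup I0] [Module k I0]
    [AddCommGroup N0] [Module k N0] [AddCommGroup M1] [Module k M1]
    [AddCommGroup I1] [Module k I1] [AddCommGroup N2] [Module k N2]
    [AddCommGroup I2] [Module k I2] [AddCommGroup M2] [Module k M2]
    [AddCommGroup PI0] [Module k PI0] [AddCommGroup PN0] [Module k PN0]
    [AddCommGroup PM1] [Module k PM1] [AddCommGroup PN2] [Module k PN2]
    [AddCommGroup PI2] [Module k PI2] [AddCommGroup PM2] [Module k PM2]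
    [FiniteDimensional k M0] [FiniteDimensional k I0] [FiniteDimensional k N0]
    [FiniteDimensional k M1] [FiniteDimensional k I1] [FiniteDimensional k N2]
    [FiniteDimensional k I2] [FiniteDimensional k M2] [FiniteDimensional k PI0]
    [FiniteDimensional k PN0] [FiniteDimensional k PM1] [FiniteDimensional k PN2]
    [FiniteDimensional k PI2] [FiniteDimensional k PM2]
    -- global dual sequence
    (i0 : M0 →ₗ[k] I0) (π0 : I0 →ₗ[k] N0) (δ : N0 →ₗ[k] M1) (i1 : M1 →ₗ[k] I1)
    (hi0 : Injective i0) (exI0 : Exact i0 π0) (exN0 : Exact π0 δ) (exM1 : Exact δ i1)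
    -- local dual sequence
    (π0P : PI0 →ₗ[k] PN0) (δP : PN0 →ₗ[k] PM1) (exPN0 : Exact π0P δP)
    (locN0 : N0 →ₗ[k] PN0) (hlocN0 : Injective locN0) (locM1 : M1 →ₗ[k] PM1)
    (lad : ∀ n, locM1 (δ n) = δP (locN0 n))
    (kill : ∀ x, locM1 x = 0 → i1 x = 0)
    -- the sequence itself in degree 2
    (j : N2 →ₗ[k] I2) (a : I2 →ₗ[k] M2) (exI2 : Exact j a)
    (jP : PN2 →ₗ[k] PI2) (b : PI2 →ₗ[k] PM2) (exPI2 : Exact jP b) (hb : Surjective b)
    (locN2 : N2 →ₗ[k] PN2) (locI2 : I2 →ₗ[k] PI2) (locM2 : M2 →ₗ[k] PM2)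
    (ladj : ∀ z, locI2 (j z) = jP (locN2 z)) (lada : ∀ z, locM2 (a z) = b (locI2 z))
    -- pairings
    (BN : PN2 →ₗ[k] PN0 →ₗ[k] k) (BI : PI2 →ₗ[k] PI0 →ₗ[k] k) (hBN : Perf BN)
    (adj : ∀ z s, BI (jP z) s = BN z (π0P s))
    (orth : ∀ z n, BN (locN2 z) (locN0 n) = 0) :
    finrank k (LinearMap.ker locM1) + (finrank k PM2 - finrank k (LinearMap.range locM2) : ℤ)
        + finrank k I0
      ≤ finrank k (LinearMap.ker locM2) + (finrank k PI2 - finrank k (LinearMap.range locI2) : ℤ)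
        + finrank k M0 := by
  have kI0 : LinearMap.ker π0 = LinearMap.range i0 := LinearMap.exact_iff.mp exI0
  have kN0 : LinearMap.ker δ = LinearMap.range π0 := LinearMap.exact_iff.mp exN0
  have kM1 : LinearMap.ker i1 = LinearMap.range δ := LinearMap.exact_iff.mp exM1
  have kPN0 : LinearMap.ker δP = LinearMap.range π0P := LinearMap.exact_iff.mp exPN0
  have kI2 : LinearMap.ker a = LinearMap.range j := LinearMap.exact_iff.mp exI2
  have kPI2 : LinearMap.ker b = LinearMap.range jP := LinearMap.exact_iff.mp exPI2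
  -- (1)
  set K : Submodule k I2 := LinearMap.ker (locM2 ∘ₗ a) with hK
  have s1a : finrank k (K.map a) ≤ finrank k (LinearMap.ker locM2) := by
    apply Submodule.finrank_mono
    rintro _ ⟨x, hx, rfl⟩
    exact hx
  have s1b := finrank_map_add a K
  have s1c : K ⊓ LinearMap.ker a = LinearMap.range j := by
    rw [kI2]
    apply inf_eq_right.mpr
    rintro _ ⟨z, rfl⟩
    show locM2 (a (j z)) = 0
    rw [(exI2 _).mpr ⟨z, rfl⟩, map_zero]
  rw [s1c] at s1b
  have s1d : finrank k (LinearMap.range (locM2 ∘ₗ a)) + finrank k K = finrank k I2 :=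
    LinearMap.finrank_range_add_finrank_ker (locM2 ∘ₗ a)
  have s1e : finrank k (LinearMap.range (locM2 ∘ₗ a)) ≤ finrank k (LinearMap.range locM2) :=
    Submodule.finrank_mono (LinearMap.range_comp_le_range a locM2)
  -- (2)
  have s2a := LinearMap.finrank_range_add_finrank_ker b
  rw [kPI2, LinearMap.range_eq_top.mpr hb, finrank_top] at s2a
  -- (3)
  have s3a := LinearMap.finrank_range_add_finrank_ker locI2
  have s3b := finrank_map_add locI2 (LinearMap.range j)
  have s3c : finrank k (LinearMap.range j ⊓ LinearMap.ker locI2 : Submodule k I2) ≤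
      finrank k (LinearMap.ker locI2) := Submodule.finrank_mono inf_le_right
  have s3d : (LinearMap.range j).map locI2 = (LinearMap.range locN2).map jP := by
    ext y
    constructor
    · rintro ⟨_, ⟨z, rfl⟩, rfl⟩
      exact ⟨locN2 z, ⟨z, rfl⟩, (ladj z).symm⟩
    · rintro ⟨_, ⟨z, rfl⟩, rfl⟩
      exact ⟨j z, ⟨z, rfl⟩, ladj z⟩
  rw [s3d] at s3b
  -- (4)
  have s4a := LinearMap.finrank_range_add_finrank_ker jP
  have s4b := finrank_map_add jP (LinearMap.range locN2)
  have s4c := Submodule.finrank_sup_add_finrank_inf_eq (LinearMap.ker jP) (LinearMap.range locN2)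
  rw [inf_comm] at s4c
  -- (5)
  set W' : Submodule k PN0 := LinearMap.range locN0 ⊓ LinearMap.range π0P with hW'
  have s5 := hBN.finrank_add_le (LinearMap.ker jP ⊔ LinearMap.range locN2) W' (by
    intro s hs w hw
    obtain ⟨z, hz, _, ⟨y, rfl⟩, rfl⟩ := Submodule.mem_sup.mp hs
    obtain ⟨⟨n, hn⟩, ⟨t, ht⟩⟩ := hw
    rw [map_add, LinearMap.add_apply]
    have h1 : BN z w = 0 := by
      rw [← ht, ← adj, LinearMap.mem_ker.mp hz]
      simp
    have h2 : BN (locN2 y) w = 0 := by
      rw [← hn, orth]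
    rw [h1, h2, add_zero])
  -- (6)
  set C : Submodule k N0 := (LinearMap.ker locM1).comap δ with hC
  have s6a : W' = C.map locN0 := by
    ext w
    constructor
    · rintro ⟨⟨n, rfl⟩, hn⟩
      refine ⟨n, ?_, rfl⟩
      show locM1 (δ n) = 0
      rw [lad]
      exact LinearMap.mem_ker.mp (kPN0 ▸ hn)
    · rintro ⟨n, hn, rfl⟩
      refine ⟨⟨n, rfl⟩, ?_⟩
      have h1 : locN0 n ∈ LinearMap.ker δP := by
        rw [LinearMap.mem_ker, ← lad]
        exact hn
      exact kPN0 ▸ h1
  have s6b : finrank k W' = finrank k C := by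
    rw [s6a]
    exact (Submodule.equivMapOfInjective locN0 hlocN0 C).finrank_eq.symm
  have s6c := finrank_map_add δ C
  have s6d : C ⊓ LinearMap.ker δ = LinearMap.ker δ := by
    apply inf_eq_right.mpr
    intro n hn
    show locM1 (δ n) = 0
    rw [LinearMap.mem_ker.mp hn, map_zero]
  have s6e : C.map δ = LinearMap.ker locM1 := by
    rw [hC, Submodule.map_comap_eq]
    apply inf_eq_right.mpr
    intro x hx
    rw [← kM1]
    exact kill x hx
  rw [s6d, s6e, kN0] at s6c
  have s6f := LinearMap.finrank_range_add_finrank_ker π0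
  rw [kI0, finrank_range_of_injective hi0] at s6f
  omega

end Fermat.Agent.S55.LA

end
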