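/-
S55 / D / MD : D4 (`m ≥ 0`) and D5 (`d ≥ t(M) - t(I)`) of the blueprint, for dual pairs.
Statements FROZEN.
-/
import Fermat.Agent.S55.D.NumSES
import Fermat.Agent.S55.D.LinAlgD4
import Fermat.Agent.S55.D.LinAlgD5

set_option autoImplicit false

noncomputable section

namespace Fermat.Agent.S55

open Module Function

variable {p : ℕ} [Fact p.Prime] {𝒜 : Datum p}

namespace Datum.Axioms

variable (ax : 𝒜.Axioms)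

section SESs
variable {A B C A' B' C' : Type}
  [AddCommGroup A] [Module (ZMod p) A] [FiniteDimensional (ZMod p) A]
  [AddCommGroup B] [Module (ZMod p) B] [FiniteDimensional (ZMod p) B]
  [AddCommGroup C] [Module (ZMod p) C] [FiniteDimensional (ZMod p) C]
  [AddCommGroup A'] [Module (ZMod p) A'] [FiniteDimensional (ZMod p) A']
  [AddCommGroup B'] [Module (ZMod p) B'] [FiniteDimensional (ZMod p) B']
  [AddCommGroup C'] [Module (ZMod p) C'] [FiniteDimensional (ZMod p) C']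
  {ρA : Representation (ZMod p) 𝒜.G A} {ρB : Representation (ZMod p) 𝒜.G B}
  {ρC : Representation (ZMod p) 𝒜.G C} [Smooth 𝒜.L ρA] [Smooth 𝒜.L ρB] [Smooth 𝒜.L ρC]
  {σA : Representation (ZMod p) 𝒜.G A'} {σB : Representation (ZMod p) 𝒜.G B'}
  {σC : Representation (ZMod p) 𝒜.G C'} [Smooth 𝒜.L σA] [Smooth 𝒜.L σB] [Smooth 𝒜.L σC]

include ax

/-- D4 for a dual pair of sequences `0→X→I→Q→0`, `0→Q*→I*→X*→0` with `H¹(X) → H¹(I)` zero. -/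
theorem r1_add_r1_le_of {dA : DualPair 𝒜.ω ρA σA} {dB : DualPair 𝒜.ω ρB σB}
    {dC : DualPair 𝒜.ω ρC σC} (T : DualSES dA dB dC)
    (kill : ∀ x, 𝒜.g1 T.E.i T.E.i_comm x = 0) :
    𝒜.r1 ρA + 𝒜.r1 σA ≤ 𝒜.p1 σA := by
  obtain ⟨δ0, δ1, δ0P, δ1P, hG, hP, lad0, -⟩ := 𝒜.exists_les T.E
  obtain ⟨δ0', δ1', δ0P', δ1P', -, hP', -, lad1'⟩ := 𝒜.exists_les T.E'
  have := ax.finP1 ρA
  have := ax.finP1 σA
  have := ax.finP2 σC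
  have := ax.finP2 σB
  have hδ : Surjective δ0 := fun x => (hG.exA1 x).1 (kill x)
  have key := LA.D4 (k := ZMod p) (HQ := ↥(H0 ρC)) (HX := H1 𝒜.L ρA) (HX' := H1 𝒜.L σA)
    (HQ2 := H2 𝒜.L σC) (PI := 𝒜.P0 ρB) (PQ := 𝒜.P0 ρC) (PX := 𝒜.P1 ρA) (PX' := 𝒜.P1 σA)
    (PQ2 := 𝒜.P2 σC) (PI2 := 𝒜.P2 σB)
    δ0 hδ (𝒜.l0 T.E.π T.E.π_comm) δ0P hP.exC0 (𝒜.loc0 ρC) (𝒜.loc1 ρA) lad0
    δ1' δ1P' (𝒜.l2 T.E'.i T.E'.i_comm) hP'.exA2 (𝒜.loc1 σA) (𝒜.loc2 σC) lad1'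
    (ax.pairP dC.flip) (ax.pairP dB.flip) (ax.pairP_perf dC.flip) (ax.pairP_perf dB.flip)
    (fun z s => ax.pairP_adj dC.flip dB.flip T.E'.i T.E'.i_comm T.E.π T.E.π_comm
      (fun c' b => (T.adj_π b c').symm) z s)
    (fun z q => ax.pairP_loc_loc dC.flip z q)
  unfold Datum.r1 Datum.p1
  exact_mod_cast key

/-- D5 for a dual pair of sequences `0→N→I→M→0`, `0→M*→I*→N*→0` with `H¹(M*) → H¹(I*)` zero. -/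
theorem s1_add_le_of {dA : DualPair 𝒜.ω ρA σA} {dB : DualPair 𝒜.ω ρB σB}
    {dC : DualPair 𝒜.ω ρC σC} (T : DualSES dA dB dC)
    (kill : ∀ x, 𝒜.g1 T.E'.i T.E'.i_comm x = 0) :
    𝒜.s1 σC + 𝒜.c ρC + 𝒜.h0 σB ≤ 𝒜.s2 ρC + 𝒜.c ρB + 𝒜.h0 σC := by
  obtain ⟨δ0, δ1, δ0P, δ1P, hG, hP, -, -⟩ := 𝒜.exists_les T.E
  obtain ⟨δ0', δ1', δ0P', δ1P', hG', hP', lad0', -⟩ := 𝒜.exists_les T.E'
  have := ax.fin1 σC
  have := ax.fin1 σB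
  have := ax.fin2 ρA
  have := ax.fin2 ρB
  have := ax.fin2 ρC
  have := ax.finP1 σC
  have := ax.finP2 ρA
  have := ax.finP2 ρB
  have := ax.finP2 ρC
  have key := LA.D5 (k := ZMod p) (M0 := ↥(H0 σC)) (I0 := ↥(H0 σB)) (N0 := ↥(H0 σA))
    (M1 := H1 𝒜.L σC) (I1 := H1 𝒜.L σB) (N2 := H2 𝒜.L ρA) (I2 := H2 𝒜.L ρB) (M2 := H2 𝒜.L ρC)
    (PI0 := 𝒜.P0 σB) (PN0 := 𝒜.P0 σA) (PM1 := 𝒜.P1 σC) (PN2 := 𝒜.P2 ρA) (PI2 := 𝒜.P2 ρB)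
    (PM2 := 𝒜.P2 ρC)
    (𝒜.g0 T.E'.i T.E'.i_comm) (𝒜.g0 T.E'.π T.E'.π_comm) δ0' (𝒜.g1 T.E'.i T.E'.i_comm)
    hG'.inj hG'.exB0 hG'.exC0 hG'.exA1
    (𝒜.l0 T.E'.π T.E'.π_comm) δ0P' hP'.exC0
    (𝒜.loc0 σA) (𝒜.loc0_injective σA) (𝒜.loc1 σC) lad0' (fun x _ => kill x)
    (𝒜.g2 T.E.i T.E.i_comm) (𝒜.g2 T.E.π T.E.π_comm) hG.exB2
    (𝒜.l2 T.E.i T.E.i_comm) (𝒜.l2 T.E.π T.E.π_comm) hP.exB2 (ax.l2_surjective T.E)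
    (𝒜.loc2 ρA) (𝒜.loc2 ρB) (𝒜.loc2 ρC)
    (𝒜.loc2_g2 T.E.i T.E.i_comm) (𝒜.loc2_g2 T.E.π T.E.π_comm)
    (ax.pairP dA) (ax.pairP dB) (ax.pairP_perf dA)
    (fun z s => ax.pairP_adj dA dB T.E.i T.E.i_comm T.E'.π T.E'.π_comm T.adj_i z s)
    (fun z n => ax.pairP_loc_loc dA z n)
  unfold Datum.s1 Datum.s2 Datum.c Datum.h0 Datum.p2 Datum.r2 Datum.Sha1 Datum.Sha2
  exact key

end SESs

section one
variable {X Y : Type} [AddCommGroup X] [Module (ZMod p) X] [AddCommGroup Y] [Module (ZMod p) Y]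
  [FiniteDimensional (ZMod p) X] [FiniteDimensional (ZMod p) Y]
  {ρ : Representation (ZMod p) 𝒜.G X} {σ : Representation (ZMod p) 𝒜.G Y}
  [Smooth 𝒜.L ρ] [Smooth 𝒜.L σ]

include ax

/-- D4 -/
theorem r1_add_r1_le (d : DualPair 𝒜.ω ρ σ) : 𝒜.r1 ρ + 𝒜.r1 σ ≤ 𝒜.p1 σ := by
  have := ax.fin1 ρ
  obtain ⟨I, _, _, _, ρI, _, Q, _, _, _, ρQ, _, E, hE⟩ := 𝒜.exists_effacing ρ
  exact ax.r1_add_r1_le_of (DualSES.of E d (DualPair.canon 𝒜.ω ρI) (DualPair.canon 𝒜.ω ρQ)) hE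

/-- D5: there is a dual pair `(I, I*)` with `s₁(Y) + c(X) + h⁰(I*) ≤ s₂(X) + c(I) + h⁰(Y)`; here in
the form needed later (the terms `c - h⁰` vanish by D3). -/
theorem s1_le_s2_of (d : DualPair 𝒜.ω ρ σ)
    (hc : ∀ {X Y : Type} [AddCommGroup X] [Module (ZMod p) X] [AddCommGroup Y] [Module (ZMod p) Y]
      [FiniteDimensional (ZMod p) X] [FiniteDimensional (ZMod p) Y]
      {ρ : Representation (ZMod p) 𝒜.G X} {σ : Representation (ZMod p) 𝒜.G Y}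
      [Smooth 𝒜.L ρ] [Smooth 𝒜.L σ] (_ : DualPair 𝒜.ω ρ σ), 𝒜.c ρ = 𝒜.h0 σ) :
    𝒜.s1 σ ≤ 𝒜.s2 ρ := by
  have := ax.fin1 σ
  obtain ⟨I, _, _, _, σI, _, Q, _, _, _, σQ, _, E, hE⟩ := 𝒜.exists_effacing σ
  have h := ax.s1_add_le_of
    (DualSES.of E d.flip (DualPair.canon 𝒜.ω σI) (DualPair.canon 𝒜.ω σQ)).flip hE
  have h1 := hc d
  have h2 := hc (DualPair.canon 𝒜.ω σI).flip
  linarith

end one

end Datum.Axioms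

end Fermat.Agent.S55

end
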