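/-
S55 / D / Split : D7, second half: `X` is a direct summand of `Fun(G/U₁,X)` if `p ∤ [G:U₁]`;
existence of `U₁` (preimage of a `p`-Sylow).   Statements FROZEN.
-/
import Fermat.Agent.S55.D.Maps

set_option autoImplicit false

noncomputable section

namespace Fermat.Agent.S55

open Module Function

variable {p : ℕ} [Fact p.Prime]

namespace Datum

variable (𝒜 : Datum p)
variable {X : Type} [AddCommGroup X] [Module (ZMod p) X] [FiniteDimensional (ZMod p) X]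
  (ρ : Representation (ZMod p) 𝒜.G X) [Smooth 𝒜.L ρ]

/-- `0 → ker Sum → Fun(G/U₁,X) -Sum-> X → 0` is split by `[G:U₁]⁻¹ const`. -/
theorem exists_split (U₁ : Subgroup 𝒜.G) (hU₁ : 𝒜.L.IsOpen U₁) (hidx : ¬ p ∣ U₁.index) :
    ∃ (K : Type) (_ : AddCommGroup K) (_ : Module (ZMod p) K) (_ : FiniteDimensional (ZMod p) K)
      (ρK : Representation (ZMod p) 𝒜.G K) (_ : Smooth 𝒜.L ρK)
      (E : SES ρK (Fun ρ (𝒜.G ⧸ U₁)) ρ) (s : X →ₗ[ZMod p] (𝒜.G ⧸ U₁ → X)),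
      (∀ g x, s (ρ g x) = Fun ρ (𝒜.G ⧸ U₁) g (s x)) ∧ ∀ x, E.π (s x) = x := by
  classical
  haveI : Finite (𝒜.G ⧸ U₁) := 𝒜.finite_quotient U₁ hU₁
  letI : Fintype (𝒜.G ⧸ U₁) := Fintype.ofFinite _
  haveI : Smooth 𝒜.L (Fun ρ (𝒜.G ⧸ U₁)) := 𝒜.smooth_Fun ρ U₁ hU₁
  -- the sum map
  let Sum : (𝒜.G ⧸ U₁ → X) →ₗ[ZMod p] X := ∑ w : 𝒜.G ⧸ U₁, LinearMap.proj w
  have hSum : ∀ f : 𝒜.G ⧸ U₁ → X, Sum f = ∑ w, f w := by
    intro f
    simp [Sum, LinearMap.sum_apply]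
  have hSumEq : ∀ (g : 𝒜.G) (f : 𝒜.G ⧸ U₁ → X),
      Sum (Fun ρ (𝒜.G ⧸ U₁) g f) = ρ g (Sum f) := by
    intro g f
    rw [hSum, hSum, map_sum]
    simp only [Fun_apply]
    exact Equiv.sum_comp (MulAction.toPerm g⁻¹) (fun w => ρ g (f w))
  -- the kernel
  let K : Submodule (ZMod p) (𝒜.G ⧸ U₁ → X) := LinearMap.ker Sum
  have hK : ∀ (g : 𝒜.G) (f : 𝒜.G ⧸ U₁ → X), f ∈ K → Fun ρ (𝒜.G ⧸ U₁) g f ∈ K := by
    intro g f hf
    rw [LinearMap.mem_ker] at hf ⊢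
    rw [hSumEq, hf, map_zero]
  let ρK : Representation (ZMod p) 𝒜.G K :=
    { toFun := fun g => (Fun ρ (𝒜.G ⧸ U₁) g).restrict (hK g)
      map_one' := by
        ext f
        simp
      map_mul' := fun g h => by
        ext f
        simp [LinearMap.restrict_apply] }
  have hρK : ∀ (g : 𝒜.G) (f : K), ((ρK g f : K) : 𝒜.G ⧸ U₁ → X) = Fun ρ (𝒜.G ⧸ U₁) g f :=
    fun g f => rfl
  haveI : Smooth 𝒜.L ρK :=
    𝒜.smooth_of_injective (ρ := ρK) (σ := Fun ρ (𝒜.G ⧸ U₁)) K.subtype (fun g f => hρK g f)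
      K.injective_subtype
  -- the index is invertible
  have hcard : (Fintype.card (𝒜.G ⧸ U₁) : ZMod p) ≠ 0 := by
    intro h
    rw [ZMod.natCast_eq_zero_iff] at h
    apply hidx
    rwa [Subgroup.index, Nat.card_eq_fintype_card]
  -- the section
  let s : X →ₗ[ZMod p] (𝒜.G ⧸ U₁ → X) :=
    (Fintype.card (𝒜.G ⧸ U₁) : ZMod p)⁻¹ • LinearMap.pi (fun _ => LinearMap.id)
  have hs : ∀ (x : X) (w : 𝒜.G ⧸ U₁), s x w = (Fintype.card (𝒜.G ⧸ U₁) : ZMod p)⁻¹ • x :=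
    fun x w => rfl
  have hSs : ∀ x, Sum (s x) = x := by
    intro x
    rw [hSum]
    simp only [hs, Finset.sum_const, Finset.card_univ]
    rw [← Nat.cast_smul_eq_nsmul (ZMod p), smul_smul, mul_inv_cancel₀ hcard, one_smul]
  refine ⟨K, inferInstance, inferInstance, inferInstance, ρK, inferInstance,
    { i := K.subtype
      π := Sum
      i_comm := fun g f => hρK g f
      π_comm := hSumEq
      inj := K.injective_subtype
      surj := fun x => ⟨s x, hSs x⟩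
      exact := fun f => by
        constructor
        · intro hf
          exact ⟨⟨f, hf⟩, rfl⟩
        · rintro ⟨f', rfl⟩
          exact f'.2 }, s, ?_, hSs⟩
  intro g x
  ext w
  simp only [hs, Fun_apply, map_smul]

/-- `N` open normal acting trivially on `X` and `μ`, `U₁` the preimage of a `p`-Sylow of `G/N`. -/
theorem exists_sylow :
    ∃ (U₁ N : Subgroup 𝒜.G) (_ : N.Normal), 𝒜.L.IsOpen N ∧ N ≤ U₁ ∧ (∀ n ∈ N, ρ n = 1) ∧
      U₁ ≤ 𝒜.ω.ker ∧ IsPGroup p (↥U₁ ⧸ N.subgroupOf U₁) ∧ ¬ p ∣ U₁.index := by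
  classical
  obtain ⟨N, hNo, hNn, -, hNω, hNρ⟩ := 𝒜.exists_trivial_on ρ ⊤ 𝒜.L.isOpen_top
  haveI := hNn
  haveI : Finite (𝒜.G ⧸ N) := 𝒜.finite_quotient N hNo
  obtain ⟨P⟩ : Nonempty (Sylow p (𝒜.G ⧸ N)) := inferInstance
  let U₁ : Subgroup 𝒜.G := (P : Subgroup (𝒜.G ⧸ N)).comap (QuotientGroup.mk' N)
  have hNU : N ≤ U₁ := by
    intro n hn
    show QuotientGroup.mk' N n ∈ (P : Subgroup (𝒜.G ⧸ N))
    rw [(QuotientGroup.eq_one_iff n).mpr hn |> fun h => (h : QuotientGroup.mk' N n = 1)]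
    exact one_mem _
  -- every element of `U₁` has a `p`-power in `N`
  have hpow : ∀ u ∈ U₁, ∃ k : ℕ, u ^ p ^ k ∈ N := by
    intro u hu
    obtain ⟨k, hk⟩ := P.isPGroup' ⟨QuotientGroup.mk' N u, hu⟩
    refine ⟨k, ?_⟩
    have h1 : (QuotientGroup.mk' N u) ^ p ^ k = 1 := by
      have := congrArg Subtype.val hk
      simpa using this
    rw [← map_pow] at h1
    exact (QuotientGroup.eq_one_iff _).mp h1
  refine ⟨U₁, N, hNn, hNo, hNU, hNρ, ?_, ?_, ?_⟩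
  · intro u hu
    obtain ⟨k, hk⟩ := hpow u hu
    have h1 : 𝒜.ω u ^ p ^ k = 1 := by
      rw [← map_pow]
      exact hNω hk
    have h2 : 𝒜.ω u ^ (p - 1) = 1 := ZMod.units_pow_card_sub_one_eq_one p _
    have hcop : Nat.Coprime (p ^ k) (p - 1) := by
      apply Nat.Coprime.pow_left
      have hp : 1 ≤ p := (Fact.out : p.Prime).one_lt.le
      have := Nat.coprime_self_sub_right hp
      rw [this]
      exact Nat.coprime_one_right p
    rw [MonoidHom.mem_ker]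
    have h3 : 𝒜.ω u ^ Nat.gcd (p ^ k) (p - 1) = 1 := pow_gcd_eq_one.mpr ⟨h1, h2⟩
    rwa [hcop.gcd_eq_one, pow_one] at h3
  · intro x
    obtain ⟨u, rfl⟩ := QuotientGroup.mk_surjective x
    obtain ⟨k, hk⟩ := hpow u u.2
    refine ⟨k, ?_⟩
    rw [← QuotientGroup.mk_pow, QuotientGroup.eq_one_iff]
    exact hk
  · have h : U₁.index = (P : Subgroup (𝒜.G ⧸ N)).index :=
      Subgroup.index_comap_of_surjective _ (QuotientGroup.mk'_surjective N)
    rw [h]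
    exact P.not_dvd_index

end Datum

end Fermat.Agent.S55

end
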