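/-
S55 / D / TZero : D3 of the blueprint: `c(X) = h⁰(Y)` for every dual pair `(X,Y)`.
Statement FROZEN.
-/
import Fermat.Agent.S55.D.Numerics

set_option autoImplicit false

noncomputable section

namespace Fermat.Agent.S55

open Module Function

variable {p : ℕ} [Fact p.Prime] {𝒜 : Datum p}

namespace TZero

section grp

variable {G : Type} [Group G] (N : Subgroup G)

lemma out_eq {Z : Type} (F : G → Z) (hF : ∀ g, ∀ n ∈ N, F (g * n) = F g) (g : G) :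
    F ((g : G ⧸ N)).out = F g := by
  obtain ⟨n, hn⟩ := QuotientGroup.mk_out_eq_mul N g
  rw [hn, hF g n n.2]

lemma out_smul {Z : Type} (F : G → Z) (hF : ∀ g, ∀ n ∈ N, F (g * n) = F g) (g : G)
    (w : G ⧸ N) : F (g • w).out = F (g * w.out) := by
  conv_lhs => rw [← QuotientGroup.out_eq' w]
  exact out_eq N F hF (g * w.out)

lemma sum_smul {M : Type} [AddCommMonoid M] [Fintype (G ⧸ N)] (g : G) (F : G ⧸ N → M) :
    ∑ w, F (g • w) = ∑ w, F w := Equiv.sum_comp (MulAction.toPerm g) F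

end grp

variable (𝒜) (N : Subgroup 𝒜.G) [Fintype (𝒜.G ⧸ N)]

/-- the functional `a ↦ Σ_w ω(w.out) a(w)` -/
def eps : Module.Dual (ZMod p) (𝒜.G ⧸ N → ZMod p) :=
  ∑ w : 𝒜.G ⧸ N, ((𝒜.ω w.out : (ZMod p)ˣ) : ZMod p) • LinearMap.proj w

lemma eps_apply (a : 𝒜.G ⧸ N → ZMod p) :
    eps 𝒜 N a = ∑ w : 𝒜.G ⧸ N, ((𝒜.ω w.out : (ZMod p)ˣ) : ZMod p) * a w := by
  simp [eps, LinearMap.sum_apply]

lemma eps_equi (hN : N ≤ 𝒜.ω.ker) (g : 𝒜.G) (a : 𝒜.G ⧸ N → ZMod p) :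
    eps 𝒜 N (Fun 𝒜.triv (𝒜.G ⧸ N) g a) = ((𝒜.ω g : (ZMod p)ˣ) : ZMod p) * eps 𝒜 N a := by
  rw [eps_apply, eps_apply, ← sum_smul N g, Finset.mul_sum]
  refine Finset.sum_congr rfl (fun w _ => ?_)
  have h1 : 𝒜.ω (g • w).out = 𝒜.ω (g * w.out) :=
    out_smul N 𝒜.ω (fun g n hn => by rw [map_mul, MonoidHom.mem_ker.1 (hN hn), mul_one]) g w
  rw [h1, map_mul, Fun_apply, inv_smul_smul, Units.val_mul, mul_assoc]
  rfl

lemma eps_ne_zero : eps 𝒜 N ≠ 0 := by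
  classical
  intro h
  have h1 := congrArg (fun φ => φ (Pi.single ((1 : 𝒜.G) : 𝒜.G ⧸ N) 1)) h
  simp only [eps_apply, LinearMap.zero_apply] at h1
  rw [Finset.sum_eq_single ((1 : 𝒜.G) : 𝒜.G ⧸ N)] at h1
  · simp at h1
  · intro w _ hw
    rw [Pi.single_eq_of_ne hw, mul_zero]
  · intro h2
    exact absurd (Finset.mem_univ _) h2

variable {𝒜}
variable {X : Type} [AddCommGroup X] [Module (ZMod p) X] (ρ : Representation (ZMod p) 𝒜.G X)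

/-- `a ↦ Σ_w a(w) • ρ(w.out) x` -/
def pix (x : X) : (𝒜.G ⧸ N → ZMod p) →ₗ[ZMod p] X :=
  ∑ w : 𝒜.G ⧸ N,
    (LinearMap.proj w : (𝒜.G ⧸ N → ZMod p) →ₗ[ZMod p] ZMod p).smulRight (ρ w.out x)

lemma pix_apply (x : X) (a : 𝒜.G ⧸ N → ZMod p) :
    pix N ρ x a = ∑ w : 𝒜.G ⧸ N, a w • ρ w.out x := by
  simp [pix, LinearMap.sum_apply]

lemma pix_equi (hN : ∀ n ∈ N, ρ n = 1) (x : X) (g : 𝒜.G) (a : 𝒜.G ⧸ N → ZMod p) :
    pix N ρ x (Fun 𝒜.triv (𝒜.G ⧸ N) g a) = ρ g (pix N ρ x a) := by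
  rw [pix_apply, pix_apply, ← sum_smul N g, map_sum]
  refine Finset.sum_congr rfl (fun w _ => ?_)
  have h1 : ρ (g • w).out = ρ (g * w.out) :=
    out_smul N ρ (fun g n hn => by rw [map_mul, hN n hn, mul_one]) g w
  rw [h1, map_mul, Fun_apply, inv_smul_smul, map_smul]
  rfl

lemma pix_single [DecidableEq (𝒜.G ⧸ N)] (hN : ∀ n ∈ N, ρ n = 1) (x : X) (g : 𝒜.G) :
    pix N ρ x (Pi.single (g : 𝒜.G ⧸ N) 1) = ρ g x := by
  rw [pix_apply, Finset.sum_eq_single (g : 𝒜.G ⧸ N)]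
  · rw [Pi.single_eq_same, one_smul]
    have h1 : ρ ((g : 𝒜.G ⧸ N)).out = ρ g :=
      out_eq N ρ (fun g n hn => by rw [map_mul, hN n hn, mul_one]) g
    rw [h1]
  · intro w _ hw
    rw [Pi.single_eq_of_ne hw, zero_smul]
  · intro h2
    exact absurd (Finset.mem_univ _) h2

omit [Fintype (𝒜.G ⧸ N)] in
lemma Fun_single [DecidableEq (𝒜.G ⧸ N)] (g : 𝒜.G) :
    Fun 𝒜.triv (𝒜.G ⧸ N) g (Pi.single ((1 : 𝒜.G) : 𝒜.G ⧸ N) 1) =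
      Pi.single (g : 𝒜.G ⧸ N) 1 := by
  ext w
  rw [Fun_apply]
  change (Pi.single ((1 : 𝒜.G) : 𝒜.G ⧸ N) (1 : ZMod p) : 𝒜.G ⧸ N → ZMod p) (g⁻¹ • w) = _
  rw [Pi.single_apply, Pi.single_apply]
  have : g⁻¹ • w = ((1 : 𝒜.G) : 𝒜.G ⧸ N) ↔ w = (g : 𝒜.G ⧸ N) := by
    rw [inv_smul_eq_iff]
    have : g • ((1 : 𝒜.G) : 𝒜.G ⧸ N) = (g : 𝒜.G ⧸ N) := by
      change ((g * 1 : 𝒜.G) : 𝒜.G ⧸ N) = _
      rw [mul_one]
    rw [this]
  simp only [this]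

/-- an invariant of `X'` is an equivariant map `X → μ`. -/
lemma dualT_inv (φ : ↥(H0 (𝒜.dualT ρ))) (g : 𝒜.G) (x : X) :
    (φ : Module.Dual (ZMod p) X) (ρ g x) =
      ((𝒜.ω g : (ZMod p)ˣ) : ZMod p) * (φ : Module.Dual (ZMod p) X) x :=
  (𝒜.evPairG ρ φ).compat g x

end TZero

namespace Datum.Axioms

variable (ax : 𝒜.Axioms)
variable {X Y : Type} [AddCommGroup X] [Module (ZMod p) X] [AddCommGroup Y] [Module (ZMod p) Y]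
  [FiniteDimensional (ZMod p) X] [FiniteDimensional (ZMod p) Y]
  {ρ : Representation (ZMod p) 𝒜.G X} {σ : Representation (ZMod p) 𝒜.G Y}
  [Smooth 𝒜.L ρ] [Smooth 𝒜.L σ]

include ax

omit [FiniteDimensional (ZMod p) Y] [Smooth 𝒜.L σ] in
/-- the key step of D3: the annihilator of the global classes consists of global invariants. -/
theorem TZero_key (d : DualPair 𝒜.ω ρ σ) (y : 𝒜.P0 σ)
    (hy : ∀ s ∈ LinearMap.range (𝒜.loc2 ρ), ax.pairP d s y = 0) :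
    y ∈ LinearMap.range (𝒜.loc0 σ) := by
  classical
  obtain ⟨N₀, hN₀open, -, -, -, hN₀triv⟩ := 𝒜.exists_trivial_on ρ ⊤ 𝒜.L.isOpen_top
  obtain ⟨N, hNopen, hNle, hNn, hNω, hc⟩ := ax.bt N₀ hN₀open
  have hNtriv : ∀ n ∈ N, ρ n = 1 := fun n hn => hN₀triv n (hNle hn)
  have : Finite (𝒜.G ⧸ N) := 𝒜.finite_quotient N hNopen
  have : Fintype (𝒜.G ⧸ N) := Fintype.ofFinite _
  have : Smooth 𝒜.L (Fun 𝒜.triv (𝒜.G ⧸ N)) := 𝒜.smooth_Fun 𝒜.triv N hNopen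
  set ρ₀ : Representation (ZMod p) 𝒜.G (𝒜.G ⧸ N → ZMod p) := Fun 𝒜.triv (𝒜.G ⧸ N) with hρ₀
  set d₀ : DualPair 𝒜.ω ρ₀ (𝒜.dualT ρ₀) := DualPair.canon 𝒜.ω ρ₀ with hd₀
  have := ax.finP2 ρ₀
  -- STEP 1
  have hεinv : TZero.eps 𝒜 N ∈ H0 (𝒜.dualT ρ₀) := fun g =>
    d₀.fixed_of_equi g (TZero.eps 𝒜 N) (fun a => TZero.eps_equi 𝒜 N hNω g a)
  have hh0 : 1 ≤ finrank (ZMod p) ↥(H0 (𝒜.dualT ρ₀)) := by
    have : Nontrivial ↥(H0 (𝒜.dualT ρ₀)) :=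
      ⟨⟨⟨TZero.eps 𝒜 N, hεinv⟩, 0, fun h => TZero.eps_ne_zero 𝒜 N (congrArg Subtype.val h)⟩⟩
    exact Module.finrank_pos
  have hW : finrank (ZMod p) ↥(LinearMap.range (𝒜.loc0 (𝒜.dualT ρ₀))) =
      finrank (ZMod p) ↥(H0 (𝒜.dualT ρ₀)) :=
    LA.finrank_range_of_injective (𝒜.loc0_injective (𝒜.dualT ρ₀))
  have hd : finrank (ZMod p) (𝒜.P2 ρ₀) ≤ finrank (ZMod p) ↥(LinearMap.range (𝒜.loc2 ρ₀)) +
      finrank (ZMod p) ↥(LinearMap.range (𝒜.loc0 (𝒜.dualT ρ₀))) := by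
    have h1 : (finrank (ZMod p) (𝒜.P2 ρ₀) : ℤ) -
        finrank (ZMod p) ↥(LinearMap.range (𝒜.loc2 ρ₀)) ≤ 1 := hc
    rw [hW]
    omega
  have step1 : ∀ ψ : 𝒜.P0 (𝒜.dualT ρ₀),
      (∀ s ∈ LinearMap.range (𝒜.loc2 ρ₀), ax.pairP d₀ s ψ = 0) →
      ψ ∈ LinearMap.range (𝒜.loc0 (𝒜.dualT ρ₀)) := fun ψ hψ =>
    LA.Perf.mem_of_orth (ax.pairP_perf d₀) (LinearMap.range (𝒜.loc2 ρ₀))
      (LinearMap.range (𝒜.loc0 (𝒜.dualT ρ₀)))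
      (by
        rintro _ ⟨z, rfl⟩ _ ⟨t, rfl⟩
        exact ax.pairP_loc_loc d₀ z t) hd ψ hψ
  -- STEP 2, 3
  have step3 : ∀ x : X, ∃ η : ↥(H0 (𝒜.dualT ρ₀)), ∀ (g : 𝒜.G) (v : 𝒜.ι),
      d.β (ρ g x) (y v) = (η : Module.Dual (ZMod p) (𝒜.G ⧸ N → ZMod p))
        (Pi.single (g : 𝒜.G ⧸ N) 1) := by
    intro x
    have hπ : ∀ g a, TZero.pix N ρ x (ρ₀ g a) = ρ g (TZero.pix N ρ x a) :=
      fun g a => TZero.pix_equi N ρ hNtriv x g a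
    have hπ' : ∀ g t, DualPair.adj d₀ d (TZero.pix N ρ x) (σ g t) =
        𝒜.dualT ρ₀ g (DualPair.adj d₀ d (TZero.pix N ρ x) t) :=
      fun g t => DualPair.adj_equi d₀ d (TZero.pix N ρ x) hπ g t
    have hadj : ∀ a t, d.β (TZero.pix N ρ x a) t =
        d₀.β a (DualPair.adj d₀ d (TZero.pix N ρ x) t) :=
      fun a t => (DualPair.adj_spec d₀ d (TZero.pix N ρ x) a t).symm
    obtain ⟨η, hη⟩ := step1 (𝒜.l0 (DualPair.adj d₀ d (TZero.pix N ρ x)) hπ' y) (by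
      rintro _ ⟨z, rfl⟩
      rw [← ax.pairP_adj d₀ d (TZero.pix N ρ x) hπ _ hπ' hadj, ← 𝒜.loc2_g2]
      exact hy _ ⟨_, rfl⟩)
    refine ⟨η, fun g v => ?_⟩
    have h1 : (η : Module.Dual (ZMod p) (𝒜.G ⧸ N → ZMod p)) =
        DualPair.adj d₀ d (TZero.pix N ρ x) (y v) := by
      have := congrArg (fun ψ : 𝒜.P0 (𝒜.dualT ρ₀) =>
        ((ψ v : ↥(H0 (rsub (𝒜.dualT ρ₀) (𝒜.D v)))) :
          Module.Dual (ZMod p) (𝒜.G ⧸ N → ZMod p))) hη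
      exact this
    rw [h1, ← TZero.pix_single N ρ hNtriv x g, hadj]
    rfl
  choose η hη using step3
  obtain ⟨v₀⟩ := (inferInstance : Nonempty 𝒜.ι)
  have hconst : ∀ v, (y v : Y) = y v₀ := by
    intro v
    rw [← sub_eq_zero]
    refine d.right _ (fun x => ?_)
    have h1 := hη x 1 v
    have h2 := hη x 1 v₀
    rw [map_one, Module.End.one_apply] at h1 h2
    rw [map_sub, h1, h2, sub_self]
  have hfix : (y v₀ : Y) ∈ H0 σ := by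
    intro g
    refine d.fixed_of_equi g _ (fun x => ?_)
    have h1 := hη x g v₀
    have h2 := hη x 1 v₀
    rw [map_one, Module.End.one_apply] at h2
    rw [h1, h2, ← TZero.Fun_single N g]
    exact TZero.dualT_inv ρ₀ (η x) g _
  refine ⟨⟨y v₀, hfix⟩, ?_⟩
  funext v
  exact Subtype.ext (hconst v).symm

/-- D3 : `t = 0` -/
theorem c_eq_h0 (d : DualPair 𝒜.ω ρ σ) : 𝒜.c ρ = 𝒜.h0 σ := by
  refine le_antisymm ?_ (ax.h0_le_c d)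
  have := ax.finP2 ρ
  have h1 := LA.Perf.finrank_le_add (ax.pairP_perf d) (LinearMap.range (𝒜.loc2 ρ))
    (LinearMap.range (𝒜.loc0 σ)) (ax.TZero_key d)
  have h2 : finrank (ZMod p) ↥(LinearMap.range (𝒜.loc0 σ)) = finrank (ZMod p) ↥(H0 σ) :=
    LA.finrank_range_of_injective (𝒜.loc0_injective σ)
  rw [h2] at h1
  unfold Datum.c Datum.p2 Datum.r2 Datum.h0
  omega

end Datum.Axioms

end Fermat.Agent.S55

end
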