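/-
S55 / D / Main : the numerical devissage (blueprint part 2): `dim Ш²(X) = dim Ш¹(X')`.
-/
import Fermat.Agent.S55.D.TZero
import Fermat.Agent.S55.D.MD
import Fermat.Agent.S55.D.FZ
import Fermat.Agent.S55.D.Split

set_option autoImplicit false

noncomputable section

namespace Fermat.Agent.S55

open Module Function

variable {p : ℕ} [Fact p.Prime] {𝒜 : Datum p}

namespace Datum.Axioms

variable (ax : 𝒜.Axioms)

section pair
variable {X Y : Type} [AddCommGroup X] [Module (ZMod p) X] [AddCommGroup Y] [Module (ZMod p) Y]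
  [FiniteDimensional (ZMod p) X] [FiniteDimensional (ZMod p) Y]
  {ρ : Representation (ZMod p) 𝒜.G X} {σ : Representation (ZMod p) 𝒜.G Y}
  [Smooth 𝒜.L ρ] [Smooth 𝒜.L σ]

include ax

/-- D5 -/
theorem s1_le_s2 (d : DualPair 𝒜.ω ρ σ) : 𝒜.s1 σ ≤ 𝒜.s2 ρ :=
  ax.s1_le_s2_of d (fun d' => ax.c_eq_h0 d')

theorem EP_nonneg (d : DualPair 𝒜.ω ρ σ) : 0 ≤ 𝒜.EP ρ σ := by
  have h := ax.EP_eq d
  have h1 := ax.s1_le_s2 d
  have h2 := ax.s1_le_s2 d.flip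
  have h3 := ax.r1_add_r1_le d.flip
  have h4 := ax.c_eq_h0 d
  have h5 := ax.c_eq_h0 d.flip
  linarith

theorem s2_eq_s1_of_EP_le (d : DualPair 𝒜.ω ρ σ) (hE : 𝒜.EP ρ σ ≤ 0) : 𝒜.s2 ρ = 𝒜.s1 σ := by
  have h := ax.EP_eq d
  have h1 := ax.s1_le_s2 d
  have h2 := ax.s1_le_s2 d.flip
  have h3 := ax.r1_add_r1_le d.flip
  have h4 := ax.c_eq_h0 d
  have h5 := ax.c_eq_h0 d.flip
  linarith

end pair

variable {X : Type} [AddCommGroup X] [Module (ZMod p) X] [FiniteDimensional (ZMod p) X]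
  (ρ : Representation (ZMod p) 𝒜.G X) [Smooth 𝒜.L ρ]

include ax

theorem E_nonneg : 0 ≤ 𝒜.E ρ := ax.EP_nonneg (DualPair.canon 𝒜.ω ρ)

/-- D7 -/
theorem E_le_zero : 𝒜.E ρ ≤ 0 := by
  obtain ⟨U₁, N, hNn, hN, hNU, hNX, hU₁, hp, hidx⟩ := 𝒜.exists_sylow ρ
  have hU₁o : 𝒜.L.IsOpen U₁ := 𝒜.L.isOpen_mono hN hNU
  have := 𝒜.finite_quotient U₁ hU₁o
  have := 𝒜.smooth_Fun ρ U₁ hU₁o
  obtain ⟨K, _, _, _, ρK, _, E, s, hs, hπs⟩ := 𝒜.exists_split ρ U₁ hU₁o hidx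
  have h1 := ax.E_eq_add_of_split E s hs hπs
  have h2 := ax.E_Fun_le_zero ρ U₁ N hN hNU hNn hNX hU₁ hp
  have h3 := ax.E_nonneg ρK
  linarith

/-- **Main theorem of part D.** -/
theorem d_eq_zero : 𝒜.d ρ = 0 := by
  have := ax.s2_eq_s1_of_EP_le (DualPair.canon 𝒜.ω ρ) (ax.E_le_zero ρ)
  simp only [Datum.d]
  linarith

theorem finrank_Sha2_eq_finrank_Sha1 :
    finrank (ZMod p) ↥(𝒜.Sha2 ρ) = finrank (ZMod p) ↥(𝒜.Sha1 (𝒜.dualT ρ)) := by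
  have := ax.d_eq_zero ρ
  simp only [Datum.d, Datum.s1, Datum.s2] at this
  omega

end Datum.Axioms

end Fermat.Agent.S55

end
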